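import Fermat.Agent.PrimeNumberTheorem.Tauberian
import Mathlib.MeasureTheory.Function.JacobianOneDim
import Mathlib.NumberTheory.LSeries.SumCoeff

/-!
# A Tauberian theorem for Dirichlet series with nonnegative coefficients

If `a ≥ 0`, `∑_{n ≤ x} a n = O (x)` and `∑ a n n^(-s) - c / (s - 1)` continues holomorphically to a
neighbourhood of `1 ≤ re s`, then `∑_{n ≤ x} a n ∼ c x`; by Newman's theorem, as for the primes in
progressions.
-/

set_option autoImplicit false
set_option linter.unusedSectionVars false

noncomputable section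

namespace FA.PrimeIdeal

open MeasureTheory Set Filter Complex FA.PNT
open scoped Topology Real

/-- `∑ a n`, `n ≤ x`. -/
def summatory (a : ℕ → ℝ) (x : ℝ) : ℝ := ∑ n ∈ Finset.Icc 1 ⌊x⌋₊, a n

/-- The function to which Newman's theorem applies. -/
def errTerm (a : ℕ → ℝ) (c : ℝ) (t : ℝ) : ℂ :=
  if 0 ≤ t then ((summatory a (Real.exp t) * Real.exp (-t) - c : ℝ) : ℂ) else 0

variable {a : ℕ → ℝ} {C c : ℝ}

theorem summatory_mono (ha : ∀ n, 0 ≤ a n) : Monotone (summatory a) := fun _ _ h =>
  Finset.sum_le_sum_of_subset_of_nonneg (Finset.Icc_subset_Icc_right (Nat.floor_le_floor h))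
    fun n _ _ => ha n

theorem summatory_nonneg (ha : ∀ n, 0 ≤ a n) (x : ℝ) : 0 ≤ summatory a x :=
  Finset.sum_nonneg fun n _ => ha n

theorem measurable_errTerm (ha : ∀ n, 0 ≤ a n) : Measurable (errTerm a c) :=
  Measurable.ite measurableSet_Ici (Complex.measurable_ofReal.comp
    ((((summatory_mono ha).measurable.comp Real.measurable_exp).mul
      (Real.measurable_exp.comp measurable_neg)).sub measurable_const)) measurable_const

theorem norm_errTerm_le (ha : ∀ n, 0 ≤ a n) (hC : 0 ≤ C)
    (hbd : ∀ x, 0 ≤ x → summatory a x ≤ C * x) (t : ℝ) : ‖errTerm a c t‖ ≤ C + |c| := by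
  rw [errTerm]
  split_ifs with h
  · rw [Complex.norm_real, Real.norm_eq_abs]
    refine (abs_sub _ _).trans (add_le_add ?_ le_rfl)
    rw [abs_of_nonneg (mul_nonneg (summatory_nonneg ha _) (Real.exp_pos _).le)]
    calc summatory a (Real.exp t) * Real.exp (-t) ≤ C * Real.exp t * Real.exp (-t) :=
          mul_le_mul_of_nonneg_right (hbd _ (Real.exp_pos t).le) (Real.exp_pos _).le
      _ = C := by rw [mul_assoc, ← Real.exp_add, add_neg_cancel, Real.exp_zero, mul_one]
  · rw [norm_zero]; positivity

theorem laplace_errTerm (ha : ∀ n, 0 ≤ a n) (hC : 0 ≤ C)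
    (hbd : ∀ x, 0 ≤ x → summatory a x ≤ C * x) {z : ℂ} (hz : 0 < z.re) :
    ∫ t in Ioi (0 : ℝ), errTerm a c t * cexp (-z * t) =
      LSeries (fun n => (a n : ℂ)) (z + 1) / (z + 1) - (c : ℂ) / z := by
  have hz1 : z + 1 ≠ 0 := fun h => by
    have := congrArg Complex.re h
    simp at this; linarith
  have hO : (fun n : ℕ => ∑ k ∈ Finset.Icc 1 n, a k) =O[atTop] fun n : ℕ => (n : ℝ) ^ (1 : ℝ) := by
    refine Asymptotics.IsBigO.of_bound C (Eventually.of_forall fun n => ?_)
    have h := hbd n (Nat.cast_nonneg n)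
    rw [summatory, Nat.floor_natCast] at h
    rw [Real.norm_eq_abs, Real.norm_eq_abs, Real.rpow_one, Nat.abs_cast,
      abs_of_nonneg (Finset.sum_nonneg fun k _ => ha k)]
    exact h
  have hL := LSeries_eq_mul_integral_of_nonneg a zero_le_one
    (s := z + 1) (by simpa using hz) hO ha
  have hsub := integral_image_eq_integral_abs_deriv_smul (s := Ioi (0 : ℝ)) (f := Real.exp)
    (f' := Real.exp) measurableSet_Ioi (fun t _ => (Real.hasDerivAt_exp t).hasDerivWithinAt)
    Real.exp_injective.injOn
    (fun x : ℝ => (∑ k ∈ Finset.Icc 1 ⌊x⌋₊, (a k : ℂ)) * (x : ℂ) ^ (-(z + 1 + 1)))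
  rw [Real.image_exp_Ioi, Real.exp_zero] at hsub
  have hexp : IntegrableOn (fun t : ℝ => cexp (-z * t)) (Ioi 0) :=
    integrableOn_exp_mul_complex_Ioi (by simpa using hz) 0
  have hc : ∫ t in Ioi (0 : ℝ), (c : ℂ) * cexp (-z * t) = (c : ℂ) / z := by
    rw [integral_const_mul, integral_exp_mul_complex_Ioi (by simpa using hz)]
    simp [div_eq_mul_inv]
  have herr : IntegrableOn (fun t : ℝ => errTerm a c t * cexp (-z * t)) (Ioi 0) :=
    Integrable.mono' ((exp_neg_integrableOn_Ioi 0 hz).const_mul _)
      (aestronglyMeasurable_kernel (measurable_errTerm ha) z _)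
      (Eventually.of_forall (norm_kernel_le (norm_errTerm_le ha hC hbd) z))
  rw [hL, mul_div_cancel_left₀ _ hz1, hsub, ← hc, eq_sub_iff_add_eq,
    ← integral_add herr (hexp.const_mul _)]
  refine setIntegral_congr_fun measurableSet_Ioi fun t (ht : 0 < t) => ?_
  rw [errTerm, if_pos ht.le, abs_of_pos (Real.exp_pos t), summatory, Complex.real_smul,
    Complex.cpow_def_of_ne_zero (by exact_mod_cast (Real.exp_pos t).ne'),
    ← Complex.ofReal_log (Real.exp_pos t).le, Real.log_exp]
  push_cast
  rw [show ∀ A B Y c : ℂ, (A * B - c) * Y + c * Y = A * (B * Y) from fun A B Y c => by ring,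
    mul_left_comm (cexp (t : ℂ)), ← Complex.exp_add, ← Complex.exp_add]
  congr 2
  ring

theorem summatory_squeeze (ha : ∀ n, 0 ≤ a n) {T h : ℝ} (hT : 0 ≤ T) (hh : 0 ≤ h) :
    h * (summatory a (Real.exp T) * Real.exp (-(T + h)) - c) ≤
      (∫ t in T..T + h, errTerm a c t).re ∧
    (∫ t in T..T + h, errTerm a c t).re ≤
      h * (summatory a (Real.exp (T + h)) * Real.exp (-T) - c) := by
  set F : ℝ → ℝ := fun t => summatory a (Real.exp t) * Real.exp (-t) - c
  have e : ∫ t in T..T + h, errTerm a c t = ((∫ t in T..T + h, F t : ℝ) : ℂ) := by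
    rw [← intervalIntegral.integral_ofReal]
    refine intervalIntegral.integral_congr fun t ht => ?_
    rw [uIcc_of_le (by linarith)] at ht
    rw [errTerm, if_pos (hT.trans ht.1)]
  rw [e, Complex.ofReal_re]
  have hi : IntervalIntegrable F volume T (T + h) :=
    ((((summatory_mono ha).comp Real.exp_strictMono.monotone).intervalIntegrable).mul_continuousOn
      (by fun_prop)).sub intervalIntegrable_const
  have hconst : ∀ u : ℝ, h * u = ∫ _t in T..T + h, u := fun u => by simp
  rw [hconst, hconst]
  constructor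
  · refine intervalIntegral.integral_mono_on (by linarith) intervalIntegrable_const hi
      fun t ht => sub_le_sub_right (mul_le_mul (summatory_mono ha (Real.exp_le_exp.mpr ht.1))
        (Real.exp_le_exp.mpr (by linarith [ht.2])) (Real.exp_pos _).le (summatory_nonneg ha _)) _
  · refine intervalIntegral.integral_mono_on (by linarith) hi intervalIntegrable_const
      fun t ht => sub_le_sub_right (mul_le_mul (summatory_mono ha (Real.exp_le_exp.mpr ht.2))
        (Real.exp_le_exp.mpr (by linarith [ht.1])) (Real.exp_pos _).le (summatory_nonneg ha _)) _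

/-- **The Tauberian theorem.** -/
theorem tendsto_summatory (ha : ∀ n, 0 ≤ a n) (hC : 0 ≤ C)
    (hbd : ∀ x, 0 ≤ x → summatory a x ≤ C * x) {F : ℂ → ℂ} {U : Set ℂ} (hU : IsOpen U)
    (hUsub : {s : ℂ | 1 ≤ s.re} ⊆ U) (hF : DifferentiableOn ℂ F U)
    (heq : ∀ s : ℂ, 1 < s.re → LSeries (fun n => (a n : ℂ)) s = c / (s - 1) + F s) :
    Tendsto (fun x => summatory a x / x) atTop (𝓝 c) := by
  set V : Set ℂ := (fun z => z + 1) ⁻¹' (U ∩ {s | s ≠ 0})
  have hV : IsOpen V := (hU.inter isOpen_ne).preimage (by fun_prop)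
  have hVsub : {z : ℂ | 0 ≤ z.re} ⊆ V := fun z hz => by
    have h1 : 1 ≤ (z + 1).re := by simpa using hz
    exact ⟨hUsub h1, fun h : z + 1 = 0 => by rw [h, Complex.zero_re] at h1; linarith⟩
  have hG : DifferentiableOn ℂ (fun z => (F (z + 1) - c) / (z + 1)) V :=
    ((hF.comp (Differentiable.differentiableOn (by fun_prop)) fun z hz => hz.1).sub_const _).div
      (Differentiable.differentiableOn (by fun_prop)) fun z hz => hz.2
  have hlim := newman (measurable_errTerm (c := c) ha) (norm_errTerm_le ha hC hbd) hV hVsub hG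
    fun z hz => by
      have hz0 : z ≠ 0 := fun h => by simp [h] at hz
      have hz1 : z + 1 ≠ 0 := fun h => by
        have := congrArg Complex.re h
        simp at this; linarith
      rw [laplace_errTerm ha hC hbd hz, heq _ (by simpa using hz), add_sub_cancel_right]
      field_simp
      ring
  have hgap : ∀ h : ℝ, Tendsto (fun T => (∫ t in T..T + h, errTerm a c t).re) atTop (𝓝 0) :=
    fun h => by
    have h1 := ((hlim.comp (tendsto_atTop_add_const_right _ h tendsto_id)).sub hlim)
    rw [sub_self] at h1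
    have h2 := (Complex.continuous_re.tendsto 0).comp h1
    rw [Complex.zero_re] at h2
    refine h2.congr fun T => ?_
    have hi : ∀ u v : ℝ, IntervalIntegrable (errTerm a c) volume u v := fun u v =>
      (intervalIntegrable_const (c := C + |c|)).mono_fun'
        (measurable_errTerm ha).aestronglyMeasurable
        (Eventually.of_forall (norm_errTerm_le ha hC hbd))
    simp only [Function.comp, id_eq]
    rw [intervalIntegral.integral_interval_sub_left (hi 0 (T + h)) (hi 0 T)]
  have hr : Tendsto (fun T => summatory a (Real.exp T) * Real.exp (-T)) atTop (𝓝 c) := by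
    refine tendsto_order.mpr ⟨fun b hb => ?_, fun b hb => ?_⟩
    · obtain ⟨h, hh, hb'⟩ : ∃ h > 0, b * Real.exp h < c := by
        have : Tendsto (fun h => b * Real.exp h) (𝓝[>] 0) (𝓝 (b * 1)) := by
          refine Tendsto.const_mul _ (Tendsto.mono_left ?_ nhdsWithin_le_nhds)
          simpa using Real.continuous_exp.tendsto 0
        rw [mul_one] at this
        obtain ⟨h, h1, h2⟩ := ((this.eventually (gt_mem_nhds hb)).and self_mem_nhdsWithin).exists
        exact ⟨h, h2, h1⟩
      filter_upwards [((hgap h).comp (tendsto_atTop_add_const_right _ (-h) tendsto_id)).eventually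
        (lt_mem_nhds (show -(h * (c - b * Real.exp h)) < 0 by
          have := mul_pos hh (sub_pos.mpr hb'); linarith)), eventually_ge_atTop h] with T hT hTh
      have h1 := (summatory_squeeze (c := c) ha (T := T + -h) (by linarith) hh.le).2
      simp only [Function.comp, id_eq] at hT
      rw [show T + -h + h = T by ring, show -(T + -h) = -T + h by ring, Real.exp_add] at h1
      rw [show T + -h + h = T by ring] at hT
      have h2 := hT.trans_le h1
      by_contra hle
      nlinarith [mul_le_mul_of_nonneg_left (mul_le_mul_of_nonneg_right (not_lt.mp hle)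
        (Real.exp_pos h).le) hh.le]
    · obtain ⟨h, hh, hb'⟩ : ∃ h > 0, c < b * Real.exp (-h) := by
        have : Tendsto (fun h => b * Real.exp (-h)) (𝓝[>] 0) (𝓝 (b * 1)) := by
          refine Tendsto.const_mul _ (Tendsto.mono_left ?_ nhdsWithin_le_nhds)
          simpa [Function.comp_def] using (Real.continuous_exp.comp continuous_neg).tendsto 0
        rw [mul_one] at this
        obtain ⟨h, h1, h2⟩ := ((this.eventually (lt_mem_nhds hb)).and self_mem_nhdsWithin).exists
        exact ⟨h, h2, h1⟩
      filter_upwards [(hgap h).eventually (gt_mem_nhds (show 0 < h * (b * Real.exp (-h) - c) from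
        mul_pos hh (sub_pos.mpr hb'))), eventually_ge_atTop 0] with T hT hT0
      have h1 := (summatory_squeeze (c := c) ha hT0 hh.le).1
      rw [neg_add, Real.exp_add] at h1
      have h2 := h1.trans_lt hT
      by_contra hle
      nlinarith [mul_le_mul_of_nonneg_left (mul_le_mul_of_nonneg_right (not_lt.mp hle)
        (Real.exp_pos (-h)).le) hh.le]
  refine (hr.comp Real.tendsto_log_atTop).congr' ?_
  filter_upwards [eventually_gt_atTop 0] with x hx
  simp [Real.exp_neg, Real.exp_log hx, div_eq_mul_inv]

end FA.PrimeIdeal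

end
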