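import Fermat.Agent.PrimeIdealTheorem.Nonvanishing
import Fermat.Agent.PrimeIdealTheorem.Tauber
import Mathlib.NumberTheory.Chebyshev

/-!
# The prime ideal theorem, in every ideal class

The series of `log N(v)` over the powers of primes in a class `C` is a mean of the `-L'/L(s, χ)`,
so it is `1 / (h (s - 1))` up to a function holomorphic near `1 ≤ re s`; so `ψ_C(x) ∼ x / h` by
Newman's theorem, whence `θ_C` and `π_C`, and the sum over the classes is the prime ideal theorem.
-/

set_option autoImplicit false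
set_option linter.unusedSectionVars false

noncomputable section

open NumberField IsDedekindDomain Module Filter Topology Ideal FA.Ext
open scoped nonZeroDivisors Classical
open scoped ArithmeticFunction.vonMangoldt

namespace FA.PrimeIdeal

variable {K : Type*} [Field K] [NumberField K]

/-- The summand of `Λ_C`. -/
def classWeight (C : ClassGroup (𝓞 K)) (p : HeightOneSpectrum (𝓞 K) × ℕ) : ℝ :=
  if primeClass p.1 ^ (p.2 + 1) = C then Real.log (absNorm p.1.asIdeal) else 0

/-- `Λ_C(n)`. -/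
def mangoldtC (C : ClassGroup (𝓞 K)) (n : ℕ) : ℝ := ∑' p : PowFiber K n, classWeight C p.1

theorem classWeight_nonneg (C : ClassGroup (𝓞 K)) (p : HeightOneSpectrum (𝓞 K) × ℕ) :
    0 ≤ classWeight C p := by
  unfold classWeight
  split_ifs
  · exact Real.log_natCast_nonneg _
  · exact le_rfl

theorem classWeight_le (C : ClassGroup (𝓞 K)) (p : HeightOneSpectrum (𝓞 K) × ℕ) :
    classWeight C p ≤ Real.log (absNorm p.1.asIdeal) := by
  unfold classWeight
  split_ifs
  · exact le_rfl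
  · exact Real.log_natCast_nonneg _

theorem summable_classWeight (C : ClassGroup (𝓞 K)) (n : ℕ) :
    Summable fun p : PowFiber K n => classWeight C p.1 :=
  Summable.of_nonneg_of_le (fun p => classWeight_nonneg C p.1) (fun p => classWeight_le C p.1)
    (summable_log_powFiber n)

theorem mangoldtC_nonneg (C : ClassGroup (𝓞 K)) (n : ℕ) : 0 ≤ mangoldtC C n :=
  tsum_nonneg fun p => classWeight_nonneg C p.1

theorem mangoldtC_le (C : ClassGroup (𝓞 K)) (n : ℕ) : mangoldtC C n ≤ finrank ℚ K * Λ n :=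
  (summable_classWeight C n).tsum_le_of_sum_le fun T =>
    (Finset.sum_le_sum fun p _ => classWeight_le C p.1).trans (sum_log_le T)

theorem summatory_mangoldtC_le (C : ClassGroup (𝓞 K)) (x : ℝ) :
    summatory (mangoldtC C) x ≤ finrank ℚ K * Chebyshev.psi x := by
  rw [Chebyshev.psi, summatory, Finset.mul_sum]
  exact Finset.sum_le_sum fun n _ => mangoldtC_le C n

/-- **The series of `Λ_C` is a mean of the logarithmic derivatives.** -/
theorem LSeries_mangoldtC (C : ClassGroup (𝓞 K)) {s : ℂ} (hs : 1 < s.re) :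
    LSeries (fun n => (mangoldtC C n : ℂ)) s = (classNumber K : ℂ)⁻¹ *
      ∑ χ : ClassGroup (𝓞 K) →* ℂˣ,
        (χ C⁻¹ : ℂ) * (-deriv (classLC χ) s / classLC χ s) := by
  set c : HeightOneSpectrum (𝓞 K) × ℕ → ℂ := fun p => (classWeight C p : ℂ)
  have hB : ∀ p, ‖c p‖ ≤ 1 * Real.log (absNorm p.1.asIdeal) := fun p => by
    rw [one_mul, Complex.norm_real, Real.norm_of_nonneg (classWeight_nonneg C p)]
    exact classWeight_le C p
  have he : (fun n => (mangoldtC C n : ℂ)) = fun n => ∑' p : PowFiber K n, c p.1 := by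
    funext n
    rw [mangoldtC, Complex.ofReal_tsum]
  rw [he, (LSeries_fiber zero_le_one hB hs).2]
  have hsum := summable_mul_pow zero_le_one hB hs
  set L : (ClassGroup (𝓞 K) →* ℂˣ) → HeightOneSpectrum (𝓞 K) → ℕ → ℂ := fun χ v k =>
    (χ C⁻¹ : ℂ) * ((Real.log (absNorm v.asIdeal) : ℂ) * charPow χ s v ^ (k + 1))
  have hkey : ∀ p, c p * primePow s p.1 ^ (p.2 + 1) =
      (classNumber K : ℂ)⁻¹ * ∑ χ, L χ p.1 p.2 := fun p => by
    have h : ∀ χ : ClassGroup (𝓞 K) →* ℂˣ, L χ p.1 p.2 =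
        (χ (C⁻¹ * primeClass p.1 ^ (p.2 + 1)) : ℂ) *
          ((Real.log (absNorm p.1.asIdeal) : ℂ) * primePow s p.1 ^ (p.2 + 1)) := fun χ => by
      simp only [L, charPow, map_mul, map_pow, Units.val_mul, Units.val_pow_eq_pow_val, mul_pow]
      ring
    simp only [h, ← Finset.sum_mul, FA.Weight1.sum_char_apply, c, classWeight, inv_mul_eq_one,
      eq_comm (a := C)]
    split_ifs
    · rw [classNumber, inv_mul_cancel_left₀ (Nat.cast_ne_zero.mpr Fintype.card_ne_zero)]
    · simp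
  have hfib : ∀ v : HeightOneSpectrum (𝓞 K), HasSum
      (fun k => c (v, k) * primePow s v ^ (k + 1))
      ((classNumber K : ℂ)⁻¹ * ∑ χ : ClassGroup (𝓞 K) →* ℂˣ, (χ C⁻¹ : ℂ) *
        ((Real.log (absNorm v.asIdeal) : ℂ) * (charPow χ s v / (1 - charPow χ s v)))) := fun v => by
    refine (HasSum.mul_left _ (hasSum_sum (f := fun χ k => L χ v k) fun χ _ => ?_)).congr_fun
      fun k => hkey (v, k)
    have h := (((hasSum_geometric_of_norm_lt_one
      ((norm_charPow_le_half χ hs.le v).trans_lt (by norm_num))).mul_left (charPow χ s v)).mul_left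
        (Real.log (absNorm v.asIdeal) : ℂ)).mul_left (χ C⁻¹ : ℂ)
    simpa [L, pow_succ', div_eq_mul_inv] using h
  exact (hsum.hasSum.prod_fiberwise hfib).unique
    ((hasSum_sum fun χ _ => (hasSum_logDeriv χ hs).mul_left _).mul_left _)

/-- **`ψ_C(x) ∼ x / h`.** -/
theorem tendsto_psiC (C : ClassGroup (𝓞 K)) :
    Tendsto (fun x => summatory (mangoldtC C) x / x) atTop (𝓝 (classNumber K : ℝ)⁻¹) := by
  obtain ⟨G, hG, h1, hG'⟩ := exists_charG (1 : ClassGroup (𝓞 K) →* ℂˣ)
  rw [if_pos rfl] at h1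
  choose E hE hE' using
    fun χ : {χ : ClassGroup (𝓞 K) →* ℂˣ // χ ≠ 1} => exists_charL χ.2
  set U : Set ℂ := {s | G s ≠ 0 ∧ ∀ χ, E χ s ≠ 0}
  have hU : IsOpen U := by
    simp only [U, Set.ofPred_and, Set.ofPred_forall]
    exact (isOpen_ne_fun hG.continuous continuous_const).inter (isOpen_iInter_of_finite fun χ =>
      isOpen_ne_fun (hE χ).continuous continuous_const)
  set F : ℂ → ℂ := fun s => (classNumber K : ℂ)⁻¹ * (-deriv G s / G s +
    ∑ χ : {χ : ClassGroup (𝓞 K) →* ℂˣ // χ ≠ 1}, (χ.1 C⁻¹ : ℂ) * (-deriv (E χ) s / E χ s))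
  refine tendsto_summatory (mangoldtC_nonneg C) (C := finrank ℚ K * (Real.log 4 + 4))
    (mul_nonneg (Nat.cast_nonneg _)
      (add_nonneg (Real.log_nonneg (by norm_num)) (by norm_num)))
    (fun x hx => (summatory_mangoldtC_le C x).trans ?_) hU
    (fun s hs => ⟨zetaG_ne_zero hG h1 hG' hs, fun χ => charL_ne_zero (hE χ) (hE' χ) hs⟩)
    (F := F) ?_ fun s hs => ?_
  · rw [mul_assoc]
    exact mul_le_mul_of_nonneg_left (Chebyshev.psi_le_const_mul_self hx) (Nat.cast_nonneg _)
  · refine DifferentiableOn.const_mul (DifferentiableOn.add ?_ (DifferentiableOn.fun_sum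
      fun χ _ => DifferentiableOn.const_mul ?_ _)) _
    · exact (hG.differentiableOn.deriv hU).neg.div hG.differentiableOn fun s hs => hs.1
    · exact ((hE χ).differentiableOn.deriv hU).neg.div (hE χ).differentiableOn fun s hs => hs.2 χ
  · have hV := (isOpen_lt continuous_const Complex.continuous_re).mem_nhds hs
    have hs1 := sub_one_ne_zero hs
    have hEd : ∀ χ : {χ : ClassGroup (𝓞 K) →* ℂˣ // χ ≠ 1},
        -deriv (classLC χ.1) s / classLC χ.1 s = -deriv (E χ) s / E χ s := fun χ => by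
      have he : classLC χ.1 =ᶠ[𝓝 s] E χ := by
        filter_upwards [hV] with z hz
        exact hE' χ z hz
      rw [he.deriv_eq, he.eq_of_nhds]
    have he : classLC (1 : ClassGroup (𝓞 K) →* ℂˣ) =ᶠ[𝓝 s] fun z => G z / (z - 1) := by
      filter_upwards [hV] with z hz
      rw [← hG' z hz, mul_div_cancel_left₀ _ (sub_one_ne_zero hz)]
    have hd : deriv (classLC (1 : ClassGroup (𝓞 K) →* ℂˣ)) s =
        (deriv G s * (s - 1) - G s * 1) / (s - 1) ^ 2 := by
      rw [he.deriv_eq]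
      exact ((hG s).hasDerivAt.div ((hasDerivAt_id s).sub_const 1) hs1).deriv
    have hG0 : G s ≠ 0 := zetaG_ne_zero hG h1 hG' hs.le
    have h1' : -deriv (classLC (1 : ClassGroup (𝓞 K) →* ℂˣ)) s /
        classLC (1 : ClassGroup (𝓞 K) →* ℂˣ) s = 1 / (s - 1) + -deriv G s / G s := by
      rw [hd, he.eq_of_nhds]
      field_simp
      ring
    rw [LSeries_mangoldtC C hs, ← Finset.add_sum_erase _ _
      (Finset.mem_univ (1 : ClassGroup (𝓞 K) →* ℂˣ)), h1']
    simp only [F, MonoidHom.one_apply, Units.val_one, one_mul]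
    rw [← Finset.sum_congr rfl fun χ _ => congrArg ((χ.1 C⁻¹ : ℂ) * ·) (hEd χ),
      ← Finset.sum_subtype (Finset.univ.erase (1 : ClassGroup (𝓞 K) →* ℂˣ)) (by simp)
        fun χ => (χ C⁻¹ : ℂ) * (-deriv (classLC χ) s / classLC χ s),
      Complex.ofReal_inv, Complex.ofReal_natCast]
    ring

theorem finite_primes_le (n : ℕ) :
    {v : HeightOneSpectrum (𝓞 K) | absNorm v.asIdeal ≤ n}.Finite := by
  refine ((Ideal.finite_setOfPred_absNorm_le n).preimage (f := fun v : HeightOneSpectrum (𝓞 K) =>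
    v.asIdeal) fun v _ w _ h => HeightOneSpectrum.ext h).subset fun v hv => hv

/-- The primes in `C` of norm at most `n`. -/
def primesUpTo (C : ClassGroup (𝓞 K)) (n : ℕ) : Finset (HeightOneSpectrum (𝓞 K)) :=
  (finite_primes_le n).toFinset.filter fun v => primeClass v = C

theorem mem_primesUpTo {C : ClassGroup (𝓞 K)} {n : ℕ} {v : HeightOneSpectrum (𝓞 K)} :
    v ∈ primesUpTo C n ↔ absNorm v.asIdeal ≤ n ∧ primeClass v = C := by
  simp [primesUpTo]

/-- `θ_C(x)`. -/
def thetaC (C : ClassGroup (𝓞 K)) (x : ℝ) : ℝ :=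
  ∑ v ∈ primesUpTo C ⌊x⌋₊, Real.log (absNorm v.asIdeal)

/-- `π_C(x)`. -/
def piC (C : ClassGroup (𝓞 K)) (x : ℝ) : ℝ := (primesUpTo C ⌊x⌋₊).card

theorem sum_norm_eq (C : ClassGroup (𝓞 K)) (g : HeightOneSpectrum (𝓞 K) → ℝ) (x : ℝ) :
    ∑ v ∈ primesUpTo C ⌊x⌋₊, g v = ∑ n ∈ Finset.Icc 1 ⌊x⌋₊,
      ∑ v ∈ (primesUpTo C ⌊x⌋₊).filter (fun v => absNorm v.asIdeal = n), g v := by
  refine (Finset.sum_fiberwise_of_maps_to (fun v hv => Finset.mem_Icc.mpr ⟨?_, ?_⟩) _).symm
  · linarith [two_le_absNorm v]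
  · exact (mem_primesUpTo.mp hv).1

theorem sum_filter_log_le (C : ClassGroup (𝓞 K)) (S : Finset (HeightOneSpectrum (𝓞 K))) (n : ℕ)
    (hS : ∀ v ∈ S, absNorm v.asIdeal = n ∧ primeClass v = C) :
    ∑ v ∈ S, Real.log (absNorm v.asIdeal) ≤ mangoldtC C n := by
  let e : S ↪ PowFiber K n :=
    ⟨fun v => ⟨(v.1, 0), by simpa using (hS v.1 v.2).1⟩, fun v w h =>
      Subtype.ext (congrArg Prod.fst (congrArg Subtype.val h))⟩
  rw [← Finset.sum_coe_sort]
  refine le_of_eq_of_le ?_ ((summable_classWeight C n).sum_le_tsum (Finset.univ.map e)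
    fun p _ => classWeight_nonneg C p.1)
  rw [Finset.sum_map]
  refine Finset.sum_congr rfl fun v _ => ?_
  rw [classWeight, if_pos (by simpa [e] using (hS v.1 v.2).2)]
  rfl

theorem mangoldtC_eq_of_prime (C : ClassGroup (𝓞 K)) {n : ℕ} (hn : n.Prime) {m : ℕ}
    (hm : n ≤ m) :
    mangoldtC C n = ∑ v ∈ (primesUpTo C m).filter (fun v => absNorm v.asIdeal = n),
      Real.log (absNorm v.asIdeal) := by
  refine le_antisymm ?_ (sum_filter_log_le C _ n fun v hv =>
    ⟨(Finset.mem_filter.mp hv).2, (mem_primesUpTo.mp (Finset.mem_filter.mp hv).1).2⟩)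
  refine (summable_classWeight C n).tsum_le_of_sum_le fun T => ?_
  have hk : ∀ p : PowFiber K n, p.1.2 = 0 := fun p => by
    by_contra h
    exact Nat.Prime.not_prime_pow (x := absNorm p.1.1.asIdeal) (n := p.1.2 + 1) (by omega)
      (p.2.symm ▸ hn)
  have hN : ∀ p : PowFiber K n, absNorm p.1.1.asIdeal = n := fun p => by
    simpa [hk p] using p.2
  rw [← Finset.sum_filter_add_sum_filter_not T (fun p => primeClass p.1.1 = C),
    Finset.sum_eq_zero (s := T.filter fun p => ¬primeClass p.1.1 = C) fun p hp => by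
      rw [classWeight, if_neg]
      simpa [hk p] using (Finset.mem_filter.mp hp).2, add_zero]
  refine (Finset.sum_le_sum fun p _ => classWeight_le C p.1).trans ?_
  rw [← Finset.sum_image (f := fun v => Real.log (absNorm v.asIdeal)) (g := fun p => p.1.1)
    fun p _ q _ h => Subtype.ext (Prod.ext h ((hk p).trans (hk q).symm))]
  refine Finset.sum_le_sum_of_subset_of_nonneg (fun v hv => ?_) fun _ _ _ =>
    Real.log_natCast_nonneg _
  obtain ⟨p, hp, rfl⟩ := Finset.mem_image.mp hv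
  exact Finset.mem_filter.mpr
    ⟨mem_primesUpTo.mpr ⟨(hN p).le.trans hm, (Finset.mem_filter.mp hp).2⟩, hN p⟩

theorem thetaC_le (C : ClassGroup (𝓞 K)) (x : ℝ) : thetaC C x ≤ summatory (mangoldtC C) x := by
  rw [thetaC, sum_norm_eq, summatory]
  exact Finset.sum_le_sum fun n _ => sum_filter_log_le C _ n fun v hv =>
    ⟨(Finset.mem_filter.mp hv).2, (mem_primesUpTo.mp (Finset.mem_filter.mp hv).1).2⟩

theorem summatory_sub_thetaC_le (C : ClassGroup (𝓞 K)) (x : ℝ) :
    summatory (mangoldtC C) x - thetaC C x ≤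
      finrank ℚ K * (Chebyshev.psi x - Chebyshev.theta x) := by
  rw [thetaC, sum_norm_eq, summatory, Chebyshev.psi, Chebyshev.theta, Finset.sum_filter,
    ← Finset.sum_sub_distrib, mul_sub, Finset.mul_sum, Finset.mul_sum, ← Finset.sum_sub_distrib]
  refine Finset.sum_le_sum fun n hn => ?_
  by_cases hp : n.Prime
  · rw [← mangoldtC_eq_of_prime C hp (Finset.mem_Icc.mp hn).2, sub_self]
    simp [hp, ArithmeticFunction.vonMangoldt_apply_prime hp]
  · have h : 0 ≤ ∑ v ∈ (primesUpTo C ⌊x⌋₊).filter (fun v => absNorm v.asIdeal = n),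
        Real.log (absNorm v.asIdeal) := Finset.sum_nonneg fun _ _ => Real.log_natCast_nonneg _
    simp only [hp, if_false, mul_zero, sub_zero]
    linarith [mangoldtC_le C n]

/-- **`θ_C(x) ∼ x / h`.** -/
theorem tendsto_thetaC (C : ClassGroup (𝓞 K)) :
    Tendsto (fun x => thetaC C x / x) atTop (𝓝 (classNumber K : ℝ)⁻¹) := by
  have h0 : Tendsto (fun x : ℝ => finrank ℚ K * ((Chebyshev.psi x - Chebyshev.theta x) / x)) atTop
      (𝓝 0) := by
    obtain ⟨C, hC⟩ := Chebyshev.psi_sub_theta_le_mul_sqrt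
    rw [← mul_zero (finrank ℚ K : ℝ)]
    refine Tendsto.const_mul _ (squeeze_zero' (g := fun x => C / Real.sqrt x) ?_ ?_
      (tendsto_const_nhds.div_atTop Real.tendsto_sqrt_atTop)) <;>
      filter_upwards [eventually_gt_atTop 0] with x hx
    · exact div_nonneg (sub_nonneg.mpr (Chebyshev.theta_le_psi x)) hx.le
    · rw [div_le_div_iff₀ hx (Real.sqrt_pos.mpr hx)]
      calc (Chebyshev.psi x - Chebyshev.theta x) * Real.sqrt x
          ≤ C * Real.sqrt x * Real.sqrt x :=
            mul_le_mul_of_nonneg_right (hC x) (Real.sqrt_nonneg x)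
        _ = C * x := by rw [mul_assoc, Real.mul_self_sqrt hx.le]
  have h2 := (tendsto_psiC C).sub h0
  rw [sub_zero] at h2
  refine tendsto_of_tendsto_of_tendsto_of_le_of_le' h2 (tendsto_psiC C) ?_ ?_ <;>
    filter_upwards [eventually_gt_atTop 0] with x hx
  · rw [← mul_div_assoc, ← sub_div]
    exact div_le_div_of_nonneg_right (by linarith [summatory_sub_thetaC_le C x]) hx.le
  · exact div_le_div_of_nonneg_right (thetaC_le C x) hx.le

theorem thetaC_le_piC_mul_log (C : ClassGroup (𝓞 K)) {x : ℝ} (hx : 1 ≤ x) :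
    thetaC C x ≤ piC C x * Real.log x := by
  rw [thetaC, piC, ← nsmul_eq_mul]
  refine Finset.sum_le_card_nsmul _ _ _ fun v hv => ?_
  exact Real.log_le_log (Nat.cast_pos.mpr (zero_lt_two.trans_le (two_le_absNorm v)))
    ((Nat.cast_le.mpr (mem_primesUpTo.mp hv).1).trans (Nat.floor_le (by linarith)))

theorem piC_le (C : ClassGroup (𝓞 K)) {y : ℝ} (hy : 0 ≤ y) : piC C y ≤ finrank ℚ K * y := by
  have hmaps : ∀ v ∈ primesUpTo C ⌊y⌋₊, absNorm v.asIdeal ∈ Finset.Icc 1 ⌊y⌋₊ := fun v hv =>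
    Finset.mem_Icc.mpr ⟨by linarith [two_le_absNorm v], (mem_primesUpTo.mp hv).1⟩
  rw [piC, Finset.card_eq_sum_card_fiberwise (s := primesUpTo C ⌊y⌋₊)
    (f := fun v : HeightOneSpectrum (𝓞 K) => absNorm v.asIdeal)
    (t := Finset.Icc 1 ⌊y⌋₊) hmaps, Nat.cast_sum]
  refine (Finset.sum_le_card_nsmul _ _ (finrank ℚ K : ℝ) fun n hn => ?_).trans ?_
  · set S := (primesUpTo C ⌊y⌋₊).filter fun w => absNorm w.asIdeal = n
    rcases S.eq_empty_or_nonempty with h | ⟨v, hv⟩
    · rw [h, Finset.card_empty, Nat.cast_zero]; positivity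
    have hn2 : 2 ≤ n := (Finset.mem_filter.mp hv).2 ▸ two_le_absNorm v
    refine le_of_mul_le_mul_right ?_ (Real.log_pos (show (1 : ℝ) < n by exact_mod_cast hn2))
    refine le_trans ?_ (((sum_filter_log_le C S n fun w hw =>
      ⟨(Finset.mem_filter.mp hw).2, (mem_primesUpTo.mp (Finset.mem_filter.mp hw).1).2⟩).trans
        (mangoldtC_le C n)).trans (mul_le_mul_of_nonneg_left
          ArithmeticFunction.vonMangoldt_le_log (Nat.cast_nonneg _)))
    rw [Finset.sum_congr rfl fun w hw => by rw [(Finset.mem_filter.mp hw).2], Finset.sum_const,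
      nsmul_eq_mul]
  · rw [nsmul_eq_mul, Nat.card_Icc, Nat.add_sub_cancel, mul_comm]
    exact mul_le_mul_of_nonneg_left (Nat.floor_le hy) (Nat.cast_nonneg _)

theorem piC_mul_log_le (C : ClassGroup (𝓞 K)) {x y : ℝ} (hy : 1 ≤ y) :
    piC C x * Real.log y ≤ thetaC C x + finrank ℚ K * y * Real.log y := by
  set P := primesUpTo C ⌊x⌋₊
  have hly : 0 ≤ Real.log y := Real.log_nonneg hy
  have h1 : ((P.filter fun v => (absNorm v.asIdeal : ℝ) ≤ y).card : ℝ) ≤ finrank ℚ K * y := by
    refine le_trans (Nat.cast_le.mpr (Finset.card_le_card (t := primesUpTo C ⌊y⌋₊) fun v hv => ?_))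
      (piC_le C (by linarith))
    exact mem_primesUpTo.mpr ⟨Nat.le_floor (Finset.mem_filter.mp hv).2,
      (mem_primesUpTo.mp (Finset.mem_filter.mp hv).1).2⟩
  have h2 : ((P.filter fun v => ¬(absNorm v.asIdeal : ℝ) ≤ y).card : ℝ) * Real.log y ≤
      thetaC C x := by
    rw [← nsmul_eq_mul, ← Finset.sum_const, thetaC]
    refine (Finset.sum_le_sum fun v hv => ?_).trans (Finset.sum_le_sum_of_subset_of_nonneg
      (Finset.filter_subset _ _) fun v _ _ => Real.log_natCast_nonneg _)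
    rw [Finset.mem_filter, not_le] at hv
    exact Real.log_le_log (by linarith) hv.2.le
  have h3 := Finset.card_filter_add_card_filter_not (s := P)
    (fun v => (absNorm v.asIdeal : ℝ) ≤ y)
  have h4 : piC C x = ((P.filter fun v => (absNorm v.asIdeal : ℝ) ≤ y).card : ℝ) +
      (P.filter fun v => ¬(absNorm v.asIdeal : ℝ) ≤ y).card := by
    rw [piC, ← Nat.cast_add, h3]
  rw [h4, add_mul]
  nlinarith [mul_le_mul_of_nonneg_right h1 hly]

/-- **`π_C(x) ∼ x / (h log x)`.** -/
theorem tendsto_piC (C : ClassGroup (𝓞 K)) :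
    Tendsto (fun x => piC C x * Real.log x / x) atTop (𝓝 (classNumber K : ℝ)⁻¹) := by
  set c : ℝ := (classNumber K : ℝ)⁻¹
  have hθ := tendsto_thetaC C
  refine tendsto_order.mpr ⟨fun b hb => ?_, fun b hb => ?_⟩
  · filter_upwards [hθ.eventually (lt_mem_nhds hb), eventually_ge_atTop 1] with x hx hx1
    exact hx.trans_le (div_le_div_of_nonneg_right (thetaC_le_piC_mul_log C hx1) (by linarith))
  · have hc : 0 ≤ c := inv_nonneg.mpr (Nat.cast_nonneg _)
    have hb0 : 0 < b := hc.trans_lt hb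
    obtain ⟨ε, hε, hε1, hcb⟩ : ∃ ε : ℝ, 0 < ε ∧ ε < 1 ∧ c < (1 - ε) * b := by
      refine ⟨(b - c) / (2 * b), div_pos (by linarith) (by linarith), ?_, ?_⟩
      · rw [div_lt_one (by linarith)]; linarith
      · rw [one_sub_mul, div_mul_eq_mul_div, mul_comm 2 b, ← div_div,
          mul_div_cancel_right₀ _ hb0.ne']
        linarith
    have hy : Tendsto (fun x : ℝ => finrank ℚ K * x ^ (1 - ε) * Real.log (x ^ (1 - ε)) / x) atTop
        (𝓝 0) := by
      have h := ((isLittleO_log_rpow_atTop hε).tendsto_div_nhds_zero).const_mul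
        ((finrank ℚ K : ℝ) * (1 - ε))
      rw [mul_zero] at h
      refine h.congr' ?_
      filter_upwards [eventually_gt_atTop 0] with x hx
      rw [Real.log_rpow hx, Real.rpow_sub hx, Real.rpow_one]
      field_simp
    have hsum := hθ.add hy
    rw [add_zero] at hsum
    filter_upwards [hsum.eventually (gt_mem_nhds hcb), eventually_ge_atTop 1] with x hx hx1
    have hx0 : 0 < x := by linarith
    have h1 := piC_mul_log_le C (x := x) (Real.one_le_rpow hx1 (by linarith : 0 ≤ 1 - ε))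
    rw [Real.log_rpow hx0] at h1 hx
    rw [← add_div, div_lt_iff₀ hx0] at hx
    rw [div_lt_iff₀ hx0]
    nlinarith

end FA.PrimeIdeal

end
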