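import Fermat.Agent.PrimeIdealTheorem.Landau

/-!
# No zeros on `1 ≤ re s`

The inequality of Mertens `|ζ(σ)³ L(σ + it, χ)⁴ L(σ + 2it, χ²)| ≥ 1` excludes zeros on the line,
except at `1` for real `χ`, where Landau's argument applies.
-/

set_option autoImplicit false
set_option linter.unusedSectionVars false

noncomputable section

open NumberField IsDedekindDomain Module Filter Topology Ideal FA.Ext
open scoped nonZeroDivisors Classical

namespace FA.PrimeIdeal

variable {K : Type*} [Field K] [NumberField K]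

theorem re_log_comb {a : ℝ} (ha₀ : 0 ≤ a) (ha₁ : a < 1) {z : ℂ} (hz : ‖z‖ = 1) :
    0 ≤ 3 * (-Complex.log (1 - a)).re + 4 * (-Complex.log (1 - a * z)).re +
      (-Complex.log (1 - a * z ^ 2)).re := by
  have hac₀ : ‖(a : ℂ)‖ < 1 := by
    simp only [Complex.norm_of_nonneg ha₀, ha₁]
  have hac₁ : ‖(a : ℂ) * z‖ < 1 := by rwa [norm_mul, hz, mul_one]
  have hac₂ : ‖(a : ℂ) * z ^ 2‖ < 1 := by rwa [norm_mul, norm_pow, hz, one_pow, mul_one]
  rw [← ((Complex.hasSum_re <| Complex.hasSum_taylorSeries_neg_log hac₀).mul_left 3).add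
    ((Complex.hasSum_re <| Complex.hasSum_taylorSeries_neg_log hac₁).mul_left 4) |>.add
    (Complex.hasSum_re <| Complex.hasSum_taylorSeries_neg_log hac₂) |>.tsum_eq]
  refine tsum_nonneg fun n => ?_
  simp only [← Complex.ofReal_pow, Complex.div_natCast_re, Complex.ofReal_re, mul_pow,
    Complex.mul_re, Complex.ofReal_im, zero_mul, sub_zero]
  rcases n.eq_zero_or_pos with rfl | hn
  · simp
  · simp only [← mul_div_assoc, ← add_div]
    refine div_nonneg ?_ n.cast_nonneg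
    rw [← pow_mul, pow_mul', sq, Complex.mul_re, ← sq, ← sq, ← Complex.sq_norm_sub_sq_re,
      norm_pow, hz]
    convert! (show 0 ≤ 2 * a ^ n * ((z ^ n).re + 1) ^ 2 by positivity) using 1
    ring

/-- **The inequality of Mertens.** -/
theorem one_le_norm_product (χ : ClassGroup (𝓞 K) →* ℂˣ) {σ : ℝ} (hσ : 1 < σ) (t : ℝ) :
    1 ≤ ‖classLC (1 : ClassGroup (𝓞 K) →* ℂˣ) σ ^ 3 * classLC χ (σ + t * Complex.I) ^ 4 *
      classLC (χ ^ 2) (σ + 2 * t * Complex.I)‖ := by
  have h₀ : 1 < ((σ : ℂ)).re := by simpa using hσ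
  have h₁ : 1 < ((σ : ℂ) + t * Complex.I).re := by simpa using hσ
  have h₂ : 1 < ((σ : ℂ) + 2 * t * Complex.I).re := by simpa using hσ
  have H₀ := summable_log_term (1 : ClassGroup (𝓞 K) →* ℂˣ) h₀
  have H₁ := summable_log_term χ h₁
  have H₂ := summable_log_term (χ ^ 2) h₂
  have hsum₀ := (Complex.hasSum_re H₀.hasSum).summable.mul_left 3
  have hsum₁ := (Complex.hasSum_re H₁.hasSum).summable.mul_left 4
  have hsum₂ := (Complex.hasSum_re H₂.hasSum).summable
  rw [← exp_logLC _ h₀, ← exp_logLC _ h₁, ← exp_logLC _ h₂]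
  simp only [← Complex.exp_nat_mul, Nat.cast_ofNat, ← Complex.exp_add, Complex.norm_exp,
    Complex.add_re, Complex.mul_re, Complex.re_ofNat, Complex.im_ofNat, zero_mul, sub_zero,
    Real.one_le_exp_iff, logLC]
  rw [Complex.re_tsum H₀, Complex.re_tsum H₁, Complex.re_tsum H₂, ← tsum_mul_left, ← tsum_mul_left,
    ← hsum₀.tsum_add hsum₁, ← (hsum₀.add hsum₁).tsum_add hsum₂]
  refine tsum_nonneg fun v => ?_
  set n := absNorm v.asIdeal
  have hn : 0 < n := zero_lt_two.trans_le (two_le_absNorm v)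
  have hn0 : (n : ℂ) ≠ 0 := Nat.cast_ne_zero.mpr hn.ne'
  set z : ℂ := (χ (primeClass v) : ℂ) * (n : ℂ) ^ (-((t : ℂ) * Complex.I)) with hz'
  have hz : ‖z‖ = 1 := by
    rw [hz', norm_mul, FA.Weight1.norm_char_apply, Complex.norm_natCast_cpow_of_pos hn]; simp
  have e₀ : charPow (1 : ClassGroup (𝓞 K) →* ℂˣ) (σ : ℂ) v = (((n : ℝ) ^ (-σ) : ℝ) : ℂ) := by
    rw [Complex.ofReal_cpow (Nat.cast_nonneg n)]; simp [charPow, primePow, n]
  have e₁ : charPow χ ((σ : ℂ) + t * Complex.I) v =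
      charPow (1 : ClassGroup (𝓞 K) →* ℂˣ) (σ : ℂ) v * z := by
    rw [charPow, charPow, primePow, primePow, hz', neg_add, Complex.cpow_add _ _ hn0,
      MonoidHom.one_apply, Units.val_one, one_mul]
    ring
  have e₂ : charPow (χ ^ 2) ((σ : ℂ) + 2 * t * Complex.I) v =
      charPow (1 : ClassGroup (𝓞 K) →* ℂˣ) (σ : ℂ) v * z ^ 2 := by
    rw [charPow, charPow, primePow, primePow, hz', neg_add, Complex.cpow_add _ _ hn0, mul_pow,
      ← Complex.cpow_nat_mul, MonoidHom.pow_apply, Units.val_pow_eq_pow_val, MonoidHom.one_apply,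
      Units.val_one, one_mul, show -(2 * (t : ℂ) * Complex.I) =
        ((2 : ℕ) : ℂ) * -((t : ℂ) * Complex.I) by push_cast; ring]
    ring
  rw [e₁, e₂, e₀]
  refine re_log_comb (by positivity) ?_ hz
  have := norm_primePow_le_half (s := (σ : ℂ)) h₀.le v
  rw [norm_primePow, Complex.ofReal_re, zN_primeIdeal] at this
  linarith

theorem false_of_zero (χ : ClassGroup (𝓞 K) →* ℂˣ) (t : ℝ) {g h : ℝ → ℂ} (hg : ContinuousAt g 1)
    (hh : ContinuousAt h 1)
    (hgeq : ∀ σ : ℝ, 1 < σ → classLC χ (σ + t * Complex.I) = ((σ : ℂ) - 1) * g σ)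
    (hheq : ∀ σ : ℝ, 1 < σ → classLC (χ ^ 2) (σ + 2 * t * Complex.I) = h σ) : False := by
  obtain ⟨G, hG, -, hG'⟩ := exists_charG (1 : ClassGroup (𝓞 K) →* ℂˣ)
  set Φ : ℝ → ℂ := fun σ => G σ ^ 3 * g σ ^ 4 * h σ with hΦ
  have hΦ1 : ContinuousAt Φ 1 :=
    ((((hG.continuous.comp Complex.continuous_ofReal).continuousAt).pow 3).mul (hg.pow 4)).mul hh
  have hlim : Tendsto (fun σ : ℝ => ‖((σ : ℂ) - 1) * Φ σ‖) (𝓝[>] 1) (𝓝 0) := by
    have h : Tendsto (fun σ : ℝ => ‖((σ : ℂ) - 1) * Φ σ‖) (𝓝 1)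
        (𝓝 ‖(((1 : ℝ) : ℂ) - 1) * Φ 1‖) :=
      (((Complex.continuous_ofReal.continuousAt (x := 1)).sub continuousAt_const).mul hΦ1).norm
    simpa using h.mono_left nhdsWithin_le_nhds
  have hge : ∀ᶠ σ : ℝ in 𝓝[>] 1, (1 : ℝ) ≤ ‖((σ : ℂ) - 1) * Φ σ‖ := by
    filter_upwards [self_mem_nhdsWithin] with σ hσ
    have hσ' : (1 : ℝ) < σ := hσ
    refine (one_le_norm_product χ hσ' t).trans_eq (congrArg norm ?_)
    have h₀ : 1 < ((σ : ℂ)).re := by simpa using hσ'
    have k₀ := sub_one_ne_zero h₀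
    rw [hgeq σ hσ', hheq σ hσ', hΦ]
    simp only [← hG' _ h₀]
    ring
  obtain ⟨σ, hσ1, hσ2⟩ := (hge.and (hlim.eventually (gt_mem_nhds zero_lt_one))).exists
  linarith

theorem ne_zero_of_ne_one (χ : ClassGroup (𝓞 K) →* ℂˣ) {G : ℂ → ℂ} (hG : Differentiable ℂ G)
    (hG' : ∀ s : ℂ, 1 < s.re → (s - 1) * classLC χ s = G s) {s : ℂ} (hs : 1 ≤ s.re)
    (hs1 : s ≠ 1) : G s ≠ 0 := by
  rcases hs.lt_or_eq with hlt | heq
  · rw [← hG' s hlt]
    exact mul_ne_zero (sub_one_ne_zero hlt) (classLC_ne_zero χ hlt)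
  intro h0
  set t : ℝ := s.im
  have hst : s = 1 + t * Complex.I := Complex.ext (by simp [← heq]) (by simp [t])
  have ht : t ≠ 0 := fun h => hs1 (by rw [hst, h]; simp)
  obtain ⟨G₂, hG₂, -, hG₂'⟩ := exists_charG (χ ^ 2)
  have e : ∀ u : ℝ, u ≠ 0 → ((1 : ℝ) : ℂ) - 1 + u * Complex.I ≠ 0 := fun u hu h =>
    hu (by simpa using congrArg Complex.im h)
  have e₂ : ((1 : ℝ) : ℂ) - 1 + 2 * t * Complex.I ≠ 0 := by
    have h := e (2 * t) (mul_ne_zero two_ne_zero ht)
    push_cast at h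
    simpa using h
  have hline : ∀ u : ℂ, Continuous fun σ : ℝ => (σ : ℂ) + u := fun u =>
    Complex.continuous_ofReal.add continuous_const
  have hden : ∀ u : ℂ, Continuous fun σ : ℝ => (σ : ℂ) - 1 + u := fun u =>
    (Complex.continuous_ofReal.sub continuous_const).add continuous_const
  refine false_of_zero χ t
    (g := fun σ => dslope G s (σ + t * Complex.I) / ((σ : ℂ) - 1 + t * Complex.I))
    (h := fun σ => G₂ (σ + 2 * t * Complex.I) / ((σ : ℂ) - 1 + 2 * t * Complex.I))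
    (((differentiable_dslope hG s).continuous.comp (hline _)).continuousAt.div
      (hden _).continuousAt (e t ht))
    ((hG₂.continuous.comp (hline _)).continuousAt.div (hden _).continuousAt e₂)
    (fun σ hσ => ?_) fun σ hσ => ?_
  · have h₁ : 1 < ((σ : ℂ) + t * Complex.I).re := by simpa using hσ
    have k₁ := sub_one_ne_zero h₁
    rw [add_sub_right_comm] at k₁
    have hgσ : G (σ + t * Complex.I) =
        ((σ : ℂ) - 1) * dslope G s (σ + t * Complex.I) := by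
      have h := sub_smul_dslope G s ((σ : ℂ) + t * Complex.I)
      rw [h0, sub_zero, smul_eq_mul] at h
      rw [← h]
      congr 1
      rw [hst]; ring
    rw [← mul_div_assoc, ← hgσ, ← hG' _ h₁, add_sub_right_comm, mul_div_cancel_left₀ _ k₁]
  · have h₂ : 1 < ((σ : ℂ) + 2 * t * Complex.I).re := by simpa using hσ
    have k₂ := sub_one_ne_zero h₂
    rw [add_sub_right_comm] at k₂
    rw [← hG₂' _ h₂, add_sub_right_comm, mul_div_cancel_left₀ _ k₂]

/-- **`ζ_K` has no zeros on `1 ≤ re s`.** -/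
theorem zetaG_ne_zero {G : ℂ → ℂ} (hG : Differentiable ℂ G) (h1 : G 1 = dedekindZeta_residue K)
    (hG' : ∀ s : ℂ, 1 < s.re → (s - 1) * classLC (1 : ClassGroup (𝓞 K) →* ℂˣ) s = G s) {s : ℂ}
    (hs : 1 ≤ s.re) : G s ≠ 0 := by
  rcases eq_or_ne s 1 with rfl | hs1
  · rw [h1, Complex.ofReal_ne_zero]
    exact dedekindZeta_residue_ne_zero K
  · exact ne_zero_of_ne_one _ hG hG' hs hs1

/-- **`L(s, χ)`, `χ ≠ 1`, has no zeros on `1 ≤ re s`.** -/
theorem charL_ne_zero {χ : ClassGroup (𝓞 K) →* ℂˣ} {E : ℂ → ℂ}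
    (hE : Differentiable ℂ E) (hE' : ∀ s : ℂ, 1 < s.re → classLC χ s = E s) {s : ℂ}
    (hs : 1 ≤ s.re) : E s ≠ 0 := by
  rcases eq_or_ne s 1 with rfl | hs1
  · by_cases h2 : χ ^ 2 = 1
    · exact charL_one_ne_zero_of_sq h2 hE hE'
    intro h0
    obtain ⟨E₂, hE₂, hE₂'⟩ := exists_charL h2
    refine false_of_zero χ 0 (g := fun σ => dslope E 1 σ) (h := fun σ => E₂ σ)
      ((differentiable_dslope hE 1).continuous.comp Complex.continuous_ofReal).continuousAt
      (hE₂.continuous.comp Complex.continuous_ofReal).continuousAt (fun σ hσ => ?_) fun σ hσ => ?_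
    · have h := sub_smul_dslope E 1 (σ : ℂ)
      rw [h0, sub_zero, smul_eq_mul, ← hE' _ (by simpa using hσ)] at h
      simpa using h.symm
    · simpa using hE₂' σ (by simpa using hσ)
  · have h := ne_zero_of_ne_one χ (G := fun s => (s - 1) * E s)
      ((differentiable_id.sub_const 1).mul hE) (fun z hz => by rw [hE' z hz]) hs hs1
    exact fun h0 => h (by rw [h0, mul_zero])

end FA.PrimeIdeal

end
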