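import Fermat.Agent.PrimeIdealTheorem.Continuation
import Fermat.Agent.Weight1.DensityPairs
import Mathlib.Analysis.SpecialFunctions.Complex.LogBounds
import Mathlib.Analysis.SpecialFunctions.Complex.LogDeriv
import Mathlib.Analysis.Normed.Group.FunctionSeries
import Mathlib.NumberTheory.LSeries.Dirichlet

/-!
# L-series of class group characters

`L(s, χ) = ∑ χ(C) ζ_C(s)` continues to the plane, is entire for `χ ≠ 1` and is for `1 < re s` the
exponential of a series over the powers of primes; a series over these is a Dirichlet series.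
-/

set_option autoImplicit false
set_option linter.unusedSectionVars false

noncomputable section

open NumberField IsDedekindDomain Module Filter Topology Ideal FA.Ext
open scoped nonZeroDivisors Classical
open scoped ArithmeticFunction.vonMangoldt

namespace FA.PrimeIdeal

variable {K : Type*} [Field K] [NumberField K]

/-- The L-series of a class group character. -/
def classLC (χ : ClassGroup (𝓞 K) →* ℂˣ) (s : ℂ) : ℂ :=
  ∑ C : ClassGroup (𝓞 K), (χ C : ℂ) * classZ C s

theorem classLC_one {s : ℂ} (hs : 1 < s.re) :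
    classLC (1 : ClassGroup (𝓞 K) →* ℂˣ) s = dedekindZeta K s := by
  simp [classLC, dedekindZeta_eq_sum_classZ hs]

theorem sum_char_eq (χ : ClassGroup (𝓞 K) →* ℂˣ) :
    ∑ C, (χ C : ℂ) = if χ = 1 then (classNumber K : ℂ) else 0 := by
  split_ifs with h
  · simp [h, classNumber]
  · exact sum_hom_units_eq_zero ((Units.coeHom ℂ).comp χ) fun h' =>
      h (MonoidHom.ext fun C => Units.ext (DFunLike.congr_fun h' C))

/-- **Continuation.** -/
theorem exists_charG (χ : ClassGroup (𝓞 K) →* ℂˣ) : ∃ G : ℂ → ℂ, Differentiable ℂ G ∧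
    G 1 = (if χ = 1 then (dedekindZeta_residue K : ℂ) else 0) ∧
      ∀ s : ℂ, 1 < s.re → (s - 1) * classLC χ s = G s := by
  obtain ⟨G, hG, h1, hG'⟩ := exists_classG K
  refine ⟨fun s => ∑ C : ClassGroup (𝓞 K), (χ C : ℂ) * G C s,
    Differentiable.fun_sum fun C _ => (hG C).const_mul _, ?_, fun s hs => ?_⟩
  · show ∑ C : ClassGroup (𝓞 K), (χ C : ℂ) * G C 1 = _
    simp only [h1, ← Finset.sum_mul, sum_char_eq]
    split_ifs
    · rw [Complex.ofReal_div, Complex.ofReal_natCast,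
        mul_div_cancel₀ _ (Nat.cast_ne_zero.mpr (classNumber_pos K).ne')]
    · rw [zero_mul]
  · rw [classLC, Finset.mul_sum]
    exact Finset.sum_congr rfl fun C _ => by rw [← hG' C s hs, mul_left_comm]

theorem sub_one_ne_zero {s : ℂ} (hs : 1 < s.re) : s - 1 ≠ 0 := fun h => by
  rw [sub_eq_zero.mp h, Complex.one_re] at hs
  exact lt_irrefl _ hs

/-- **For `χ ≠ 1` it is entire.** -/
theorem exists_charL {χ : ClassGroup (𝓞 K) →* ℂˣ} (hχ : χ ≠ 1) :
    ∃ E : ℂ → ℂ, Differentiable ℂ E ∧ ∀ s : ℂ, 1 < s.re → classLC χ s = E s := by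
  obtain ⟨G, hG, h1, hG'⟩ := exists_charG χ
  refine ⟨dslope G 1, differentiable_dslope hG 1, fun s hs => ?_⟩
  have h := sub_smul_dslope G 1 s
  rw [h1, if_neg hχ, sub_zero, ← hG' s hs, smul_eq_mul] at h
  exact (mul_left_cancel₀ (sub_one_ne_zero hs) h).symm

/-- The class of a prime. -/
def primeClass (v : HeightOneSpectrum (𝓞 K)) : ClassGroup (𝓞 K) := ClassGroup.mk0 (primeIdeal v)

/-- `N(v) ^ (-s)`. -/
def primePow (s : ℂ) (v : HeightOneSpectrum (𝓞 K)) : ℂ :=
  ((absNorm v.asIdeal : ℕ) : ℂ) ^ (-s)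

/-- `χ(v) N(v) ^ (-s)`. -/
def charPow (χ : ClassGroup (𝓞 K) →* ℂˣ) (s : ℂ) (v : HeightOneSpectrum (𝓞 K)) : ℂ :=
  (χ (primeClass v) : ℂ) * primePow s v

theorem norm_primePow (s : ℂ) (v : HeightOneSpectrum (𝓞 K)) :
    ‖primePow s v‖ = zN s.re (primeIdeal v) :=
  FA.AbelianZeta.norm_normPow s (primeIdeal v)

theorem norm_primePow_le_half {s : ℂ} (hs : 1 ≤ s.re) (v : HeightOneSpectrum (𝓞 K)) :
    ‖primePow s v‖ ≤ 1 / 2 :=
  (norm_primePow s v).trans_le (zN_primeIdeal_le_half hs v)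

theorem norm_charPow (χ : ClassGroup (𝓞 K) →* ℂˣ) (s : ℂ) (v : HeightOneSpectrum (𝓞 K)) :
    ‖charPow χ s v‖ = ‖primePow s v‖ := by
  rw [charPow, norm_mul, FA.Weight1.norm_char_apply, one_mul]

theorem norm_charPow_le_half (χ : ClassGroup (𝓞 K) →* ℂˣ) {s : ℂ} (hs : 1 ≤ s.re)
    (v : HeightOneSpectrum (𝓞 K)) : ‖charPow χ s v‖ ≤ 1 / 2 :=
  (norm_charPow χ s v).trans_le (norm_primePow_le_half hs v)

theorem summable_zN_primeIdeal {s : ℝ} (hs : 1 < s) :
    Summable fun v : HeightOneSpectrum (𝓞 K) => zN s (primeIdeal v) :=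
  (summable_zN hs).comp_injective fun _ _ h => HeightOneSpectrum.ext (congrArg Subtype.val h)

theorem one_sub_mem_slitPlane {z : ℂ} (hz : ‖z‖ ≤ 1 / 2) : 1 - z ∈ Complex.slitPlane := by
  rw [sub_eq_add_neg]
  refine Complex.mem_slitPlane_of_norm_lt_one ?_
  rw [norm_neg]
  linarith

theorem norm_log_term_le (χ : ClassGroup (𝓞 K) →* ℂˣ) {s : ℂ} (hs : 1 ≤ s.re)
    (v : HeightOneSpectrum (𝓞 K)) :
    ‖-Complex.log (1 - charPow χ s v)‖ ≤ 3 / 2 * zN s.re (primeIdeal v) := by
  rw [norm_neg, sub_eq_add_neg, ← norm_primePow, ← norm_charPow χ, ← norm_neg (charPow χ s v)]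
  exact Complex.norm_log_one_add_half_le_self
    ((norm_neg _).trans_le (norm_charPow_le_half χ hs v))

theorem summable_log_term (χ : ClassGroup (𝓞 K) →* ℂˣ) {s : ℂ} (hs : 1 < s.re) :
    Summable fun v : HeightOneSpectrum (𝓞 K) => -Complex.log (1 - charPow χ s v) :=
  Summable.of_norm_bounded ((summable_zN_primeIdeal hs).mul_left _) fun v =>
    norm_log_term_le χ hs.le v

/-- The logarithm given by the Euler product. -/
def logLC (χ : ClassGroup (𝓞 K) →* ℂˣ) (s : ℂ) : ℂ :=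
  ∑' v : HeightOneSpectrum (𝓞 K), -Complex.log (1 - charPow χ s v)

/-- `I ↦ χ(I) N(I) ^ (-s)`. -/
def twistPow (χ : ClassGroup (𝓞 K) →* ℂˣ) (s : ℂ) : (Ideal (𝓞 K))⁰ →* ℂ :=
  ((Units.coeHom ℂ).comp (χ.comp ClassGroup.mk0)) * FA.AbelianZeta.normPow s

theorem exp_logLC (χ : ClassGroup (𝓞 K) →* ℂˣ) {s : ℂ} (hs : 1 < s.re) :
    Complex.exp (logLC χ s) = classLC χ s := by
  have hval : ∀ I, twistPow χ s I =
      (χ (ClassGroup.mk0 I) : ℂ) * FA.AbelianZeta.normPow s I := fun I => rfl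
  have hsum : Summable fun I => ‖twistPow (K := K) χ s I‖ :=
    (FA.AbelianZeta.summable_norm_normPow hs).congr fun I => by
      rw [hval, norm_mul, FA.Weight1.norm_char_apply, one_mul]
  have htot : ∑' I, twistPow χ s I = classLC χ s := by
    have h : Summable fun c => twistPow χ s
        ((Equiv.sigmaFiberEquiv (ClassGroup.mk0 (R := 𝓞 K))) c) :=
      (Equiv.sigmaFiberEquiv _).summable_iff.mpr hsum.of_norm
    rw [← (Equiv.sigmaFiberEquiv (ClassGroup.mk0 (R := 𝓞 K))).tsum_eq, h.tsum_sigma, tsum_fintype,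
      classLC]
    refine Finset.sum_congr rfl fun C _ => ?_
    rw [classZ, ← tsum_mul_left]
    exact tsum_congr fun I => by
      show twistPow χ s I.1 = _
      rw [hval, I.2]
  have hlt : ∀ v, ‖twistPow χ s (primeIdeal v)‖ < 1 := fun v => by
    have h := norm_charPow_le_half χ hs.le v
    rw [hval]
    exact lt_of_le_of_lt h (by norm_num)
  have h : HasProd _ (Complex.exp (logLC χ s)) := (summable_log_term (K := K) χ hs).hasSum.cexp
  refine tendsto_nhds_unique h (htot ▸ (tendsto_eulerProduct _ hsum hlt).congr fun V => ?_)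
  refine Finset.prod_congr rfl fun v _ => ?_
  rw [Function.comp_apply, Complex.exp_neg,
    Complex.exp_log (Complex.slitPlane_ne_zero (one_sub_mem_slitPlane
      (norm_charPow_le_half χ hs.le v)))]
  rfl

theorem classLC_ne_zero (χ : ClassGroup (𝓞 K) →* ℂˣ) {s : ℂ} (hs : 1 < s.re) :
    classLC χ s ≠ 0 :=
  exp_logLC χ hs ▸ Complex.exp_ne_zero _

theorem hasDerivAt_log_term (χ : ClassGroup (𝓞 K) →* ℂˣ) {s : ℂ} (hs : 1 ≤ s.re)
    (v : HeightOneSpectrum (𝓞 K)) :
    HasDerivAt (fun z => -Complex.log (1 - charPow χ z v))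
      (-((Real.log (absNorm v.asIdeal) : ℂ) * (charPow χ s v / (1 - charPow χ s v)))) s := by
  have hn : ((absNorm v.asIdeal : ℕ) : ℂ) ≠ 0 :=
    Nat.cast_ne_zero.mpr (zero_lt_two.trans_le (two_le_absNorm v)).ne'
  have h := ((((hasDerivAt_id s).neg.const_cpow (c := ((absNorm v.asIdeal : ℕ) : ℂ))
    (Or.inl hn)).const_mul (χ (primeClass v) : ℂ)).const_sub 1).clog
      (one_sub_mem_slitPlane (norm_charPow_le_half χ hs v))
  refine h.neg.congr_deriv ?_
  simp only [Pi.neg_apply, id_eq, Complex.natCast_log, charPow, primePow]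
  ring

/-- **The logarithmic derivative.** -/
theorem hasSum_logDeriv (χ : ClassGroup (𝓞 K) →* ℂˣ) {s : ℂ} (hs : 1 < s.re) :
    HasSum (fun v : HeightOneSpectrum (𝓞 K) =>
      (Real.log (absNorm v.asIdeal) : ℂ) * (charPow χ s v / (1 - charPow χ s v)))
      (-deriv (classLC χ) s / classLC χ s) := by
  set σ := (1 + s.re) / 2
  have hσ : 1 < σ := by simp only [σ]; linarith
  set V : Set ℂ := {z | σ < z.re}
  have hV : IsOpen V := isOpen_lt continuous_const Complex.continuous_re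
  have hsV : s ∈ V := show σ < s.re by simp only [σ]; linarith
  have hb : ∀ (v : HeightOneSpectrum (𝓞 K)) (z : ℂ), z ∈ V →
      ‖-Complex.log (1 - charPow χ z v)‖ ≤ 3 / 2 * zN σ (primeIdeal v) := fun v z hz =>
    (norm_log_term_le χ (hσ.le.trans (le_of_lt hz)) v).trans (mul_le_mul_of_nonneg_left
      (Real.rpow_le_rpow_of_exponent_le (one_le_absNorm _) (neg_le_neg (le_of_lt hz)))
      (by norm_num))
  have hd : ∀ v : HeightOneSpectrum (𝓞 K),
      DifferentiableOn ℂ (fun z => -Complex.log (1 - charPow χ z v)) V := fun v z hz =>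
    (hasDerivAt_log_term χ (hσ.le.trans (le_of_lt hz)) v).differentiableAt.differentiableWithinAt
  have hu := (summable_zN_primeIdeal (K := K) hσ).mul_left (3 / 2)
  have hL := Complex.hasSum_deriv_of_summable_norm hu hd hV hb hsV
  have hdiff : DifferentiableAt ℂ (logLC χ) s :=
    (Complex.differentiableOn_tsum_of_summable_norm hu hd hV hb).differentiableAt
      (hV.mem_nhds hsV)
  have hexp : deriv (classLC χ) s = deriv (logLC χ) s * classLC χ s := by
    have he : classLC χ =ᶠ[𝓝 s] fun z => Complex.exp (logLC χ z) := by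
      filter_upwards [(isOpen_lt continuous_const Complex.continuous_re).mem_nhds hs] with z hz
      exact (exp_logLC χ hz).symm
    rw [he.deriv_eq, deriv_cexp hdiff, exp_logLC χ hs, mul_comm]
  rw [hexp, ← neg_mul, mul_div_cancel_right₀ _ (classLC_ne_zero χ hs)]
  refine hL.neg.congr_fun fun v => ?_
  rw [(hasDerivAt_log_term χ hs.le v).deriv, neg_neg]

variable (K) in
/-- The powers of primes of norm `n`. -/
abbrev PowFiber (n : ℕ) : Type _ :=
  {p : HeightOneSpectrum (𝓞 K) × ℕ // absNorm p.1.asIdeal ^ (p.2 + 1) = n}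

theorem exists_absNorm_eq_pow {ℓ : ℕ} (hℓ : ℓ.Prime) {v : HeightOneSpectrum (𝓞 K)}
    (h : (ℓ : 𝓞 K) ∈ v.asIdeal) : ∃ i, 0 < i ∧ absNorm v.asIdeal = ℓ ^ i := by
  have hd : absNorm v.asIdeal ∣ ℓ ^ finrank ℚ K :=
    absNorm_span_natCast (K := K) ℓ ▸ map_dvd absNorm
      (Ideal.dvd_iff_le.mpr ((Ideal.span_singleton_le_iff_mem _).mpr h))
  obtain ⟨i, -, hi⟩ := (Nat.dvd_prime_pow hℓ).mp hd
  refine ⟨i, Nat.pos_of_ne_zero fun h0 => ?_, hi⟩
  have := two_le_absNorm v
  rw [hi, h0, pow_zero] at this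
  omega

/-- **At most `d` times the rational one.** -/
theorem sum_log_le {n : ℕ} (T : Finset (PowFiber K n)) :
    ∑ p ∈ T, Real.log (absNorm p.1.1.asIdeal) ≤ finrank ℚ K * Λ n := by
  rcases T.eq_empty_or_nonempty with rfl | ⟨p₀, -⟩
  · simpa using mul_nonneg (Nat.cast_nonneg _) ArithmeticFunction.vonMangoldt_nonneg
  obtain ⟨ℓ, hℓ, hℓ₀⟩ := exists_rat_prime_mem p₀.1.1
  obtain ⟨i₀, hi₀, hN₀⟩ := exists_absNorm_eq_pow hℓ hℓ₀
  have hn : n = ℓ ^ (i₀ * (p₀.1.2 + 1)) := by rw [pow_mul, ← hN₀]; exact p₀.2.symm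
  have hmem : ∀ p : PowFiber K n, (ℓ : 𝓞 K) ∈ p.1.1.asIdeal := fun p => by
    obtain ⟨q, hq, hq'⟩ := exists_rat_prime_mem p.1.1
    obtain ⟨i, hi, hN⟩ := exists_absNorm_eq_pow hq hq'
    have h1 : q ∣ n := by
      rw [← p.2, hN, ← pow_mul]
      exact dvd_pow_self q (mul_ne_zero hi.ne' (Nat.succ_ne_zero _))
    rw [hn] at h1
    rwa [← (Nat.prime_dvd_prime_iff_eq hq hℓ).mp (hq.dvd_of_dvd_pow h1)]
  have hinj : Function.Injective fun p : PowFiber K n => p.1.1.asIdeal := fun p q h => by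
    have e : p.1.1 = q.1.1 := HeightOneSpectrum.ext h
    have h' := p.2.trans q.2.symm
    rw [e] at h'
    exact Subtype.ext (Prod.ext e
      (Nat.succ_injective (Nat.pow_right_injective (two_le_absNorm q.1.1) h')))
  have hdiv : ∏ p ∈ T, p.1.1.asIdeal ∣ Ideal.span {(ℓ : 𝓞 K)} := by
    rw [← Finset.prod_image (f := fun I : Ideal (𝓞 K) => I) hinj.injOn]
    refine Finset.prod_primes_dvd _ ?_ ?_
    · intro I hI
      obtain ⟨p, -, rfl⟩ := Finset.mem_image.mp hI
      exact p.1.1.prime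
    · intro I hI
      obtain ⟨p, -, rfl⟩ := Finset.mem_image.mp hI
      exact Ideal.dvd_iff_le.mpr ((Ideal.span_singleton_le_iff_mem _).mpr (hmem p))
  have h3 : ∏ p ∈ T, absNorm p.1.1.asIdeal ≤ ℓ ^ finrank ℚ K := by
    refine Nat.le_of_dvd (pow_pos hℓ.pos _) ?_
    rw [← map_prod, ← absNorm_span_natCast (K := K)]
    exact map_dvd absNorm hdiv
  have hpos : ∀ p ∈ T, ((absNorm p.1.1.asIdeal : ℕ) : ℝ) ≠ 0 := fun p _ =>
    Nat.cast_ne_zero.mpr (zero_lt_two.trans_le (two_le_absNorm p.1.1)).ne'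
  have hΛ : Λ n = Real.log ℓ := by
    rw [hn, ArithmeticFunction.vonMangoldt_apply_pow (mul_ne_zero hi₀.ne' (Nat.succ_ne_zero _)),
      ArithmeticFunction.vonMangoldt_apply_prime hℓ]
  rw [← Real.log_prod hpos, hΛ, ← Real.log_pow]
  refine Real.log_le_log ?_ (by exact_mod_cast h3)
  exact Finset.prod_pos fun p hp => lt_of_le_of_ne (Nat.cast_nonneg _) (hpos p hp).symm

theorem summable_log_powFiber (n : ℕ) :
    Summable fun p : PowFiber K n => Real.log (absNorm p.1.1.asIdeal) :=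
  summable_of_sum_le (fun _ => Real.log_natCast_nonneg _) fun T => sum_log_le T

theorem summable_mul_pow {c : HeightOneSpectrum (𝓞 K) × ℕ → ℂ} {B : ℝ} (hB : 0 ≤ B)
    (hc : ∀ p, ‖c p‖ ≤ B * Real.log (absNorm p.1.asIdeal)) {s : ℂ} (hs : 1 < s.re) :
    Summable fun p : HeightOneSpectrum (𝓞 K) × ℕ => c p * primePow s p.1 ^ (p.2 + 1) := by
  have hlt : ∀ v : HeightOneSpectrum (𝓞 K), ‖primePow s v‖ < 1 := fun v => by
    linarith [norm_primePow_le_half hs.le v]
  set g : HeightOneSpectrum (𝓞 K) × ℕ → ℝ := fun p =>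
    B * Real.log (absNorm p.1.asIdeal) * ‖primePow s p.1‖ ^ (p.2 + 1)
  suffices hg : Summable g from Summable.of_norm_bounded hg fun p => by
    rw [norm_mul, norm_pow]
    exact mul_le_mul_of_nonneg_right (hc p) (pow_nonneg (norm_nonneg _) _)
  set σ := (1 + s.re) / 2 with hσ'
  set ε := (s.re - 1) / 2 with hε'
  have hσ : 1 < σ := by linarith [hσ']
  have hε : 0 < ε := by linarith [hε']
  refine (summable_prod_of_nonneg fun p => ?_).mpr ⟨fun v => ?_, ?_⟩
  · exact mul_nonneg (mul_nonneg hB (Real.log_natCast_nonneg _)) (pow_nonneg (norm_nonneg _) _)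
  · exact ((summable_nat_add_iff 1).mpr
      (summable_geometric_of_lt_one (norm_nonneg _) (hlt v))).mul_left
        (B * Real.log (absNorm v.asIdeal))
  · refine Summable.of_nonneg_of_le (fun v => tsum_nonneg fun k => ?_) (fun v => ?_)
      ((summable_zN_primeIdeal (K := K) hσ).mul_left (2 * B / ε))
    · exact mul_nonneg (mul_nonneg hB (Real.log_natCast_nonneg _)) (pow_nonneg (norm_nonneg _) _)
    set N : ℝ := ((absNorm v.asIdeal : ℕ) : ℝ)
    have hN : 0 < N := Nat.cast_pos.mpr (zero_lt_two.trans_le (two_le_absNorm v))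
    set r := ‖primePow s v‖ with hr'
    have hr : r ≤ 1 / 2 := norm_primePow_le_half hs.le v
    have he : ∑' k, g (v, k) = B * Real.log N * (r * (1 - r)⁻¹) := by
      simp only [g, ← hr', pow_succ', tsum_mul_left, N]
      rw [tsum_geometric_of_lt_one (hr' ▸ norm_nonneg _) (by linarith)]
    have h2 : (1 - r)⁻¹ ≤ 2 := by rw [inv_le_comm₀ (by linarith) two_pos]; linarith
    have hlog := mul_le_mul_of_nonneg_left (Real.log_le_rpow_div hN.le hε) hB
    rw [he]
    calc B * Real.log N * (r * (1 - r)⁻¹) ≤ B * (N ^ ε / ε) * (r * 2) :=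
          mul_le_mul hlog (mul_le_mul_of_nonneg_left h2 (norm_nonneg _))
            (mul_nonneg (norm_nonneg _) (inv_nonneg.mpr (by linarith))) (by positivity)
      _ = 2 * B / ε * (N ^ ε * N ^ (-s.re)) := by
          rw [hr', norm_primePow, zN_primeIdeal]; ring
      _ = 2 * B / ε * zN σ (primeIdeal v) := by
          rw [← Real.rpow_add hN, zN_primeIdeal]
          congr 2
          simp only [hσ', hε']
          ring

theorem summable_fiber {c : HeightOneSpectrum (𝓞 K) × ℕ → ℂ} {B : ℝ}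
    (hc : ∀ p, ‖c p‖ ≤ B * Real.log (absNorm p.1.asIdeal)) (n : ℕ) :
    Summable fun p : PowFiber K n => c p.1 :=
  Summable.of_norm_bounded ((summable_log_powFiber n).mul_left B) fun p => hc p.1

/-- **A series over the powers of primes is a Dirichlet series.** -/
theorem LSeries_fiber {c : HeightOneSpectrum (𝓞 K) × ℕ → ℂ} {B : ℝ} (hB : 0 ≤ B)
    (hc : ∀ p, ‖c p‖ ≤ B * Real.log (absNorm p.1.asIdeal)) {s : ℂ} (hs : 1 < s.re) :
    LSeriesSummable (fun n => ∑' p : PowFiber K n, c p.1) s ∧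
    LSeries (fun n => ∑' p : PowFiber K n, c p.1) s =
      ∑' p : HeightOneSpectrum (𝓞 K) × ℕ, c p * primePow s p.1 ^ (p.2 + 1) := by
  have h2 := (((Equiv.sigmaFiberEquiv fun p : HeightOneSpectrum (𝓞 K) × ℕ =>
    absNorm p.1.asIdeal ^ (p.2 + 1)).hasSum_iff).mpr (summable_mul_pow hB hc hs).hasSum).sigma
      fun n => by
      show HasSum (fun p : PowFiber K n => c p.1 * primePow s p.1.1 ^ (p.1.2 + 1))
        (LSeries.term (fun n => ∑' p : PowFiber K n, c p.1) s n)
      rcases eq_or_ne n 0 with rfl | hn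
      · have : IsEmpty (PowFiber K 0) := ⟨fun p => pow_ne_zero _
          (zero_lt_two.trans_le (two_le_absNorm p.1.1)).ne' p.2⟩
        simp [hasSum_empty]
      rw [LSeries.term_of_ne_zero hn, div_eq_mul_inv, ← Complex.cpow_neg]
      refine ((summable_fiber hc n).hasSum.mul_right _).congr_fun fun p => ?_
      congr 1
      conv_rhs => rw [← p.2, Nat.cast_pow]
      rw [primePow, ← Complex.natCast_cpow_natCast_mul, Complex.cpow_nat_mul]
  exact ⟨h2.summable, h2.tsum_eq⟩

end FA.PrimeIdeal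

end
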