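import Fermat.Agent.PrimeIdealTheorem.Entire
import Fermat.Agent.AbelianZeta.Euler
import Mathlib.Analysis.Complex.RemovableSingularity

/-!
# The zeta functions of ideal classes continue to the plane

The weighted sum `Z` over the integers is multiplied by `m ^ (-d s)` under `x ↦ m x`, so that
`(1 - (m ^ d) ^ (1 - s)) Z` is entire; with `m = 2` and `m = 3` only the simple pole at `1` is left.
By the comparison with the ideals the same holds for every class, with a residue independent of the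
class, so it is that of the zeta function divided by the class number.
-/

set_option autoImplicit false
set_option linter.unusedSectionVars false

noncomputable section

open NumberField NumberField.mixedEmbedding Module Filter Topology Ideal FA.Ext
open scoped nonZeroDivisors Classical

namespace FA.PrimeIdeal

variable {K : Type*} [Field K] [NumberField K]

/-- The summand. -/
def lterm (s : ℂ) (x : 𝓞 K) : ℂ := symTerm weightS s (intEmb K x)

variable (K) in
/-- The sum over all integers. -/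
def latZ (s : ℂ) : ℂ := ∑' x : 𝓞 K, lterm s x

/-- The sum over an ideal. -/
def latL (J : Ideal (𝓞 K)) (s : ℂ) : ℂ := ∑' y : J, lterm s (y : 𝓞 K)

theorem lterm_zero (s : ℂ) : lterm s (0 : 𝓞 K) = 0 := by
  rw [lterm, intEmb_zero, symTerm, weightS_zero, Complex.ofReal_zero, zero_mul]

theorem summable_lterm {s : ℂ} (hs : 1 < s.re) : Summable (lterm (K := K) s) :=
  summable_symTerm isSymbol_weightS hs

theorem absNorm_span_pos {x : 𝓞 K} (hx : x ≠ 0) : 0 < absNorm (Ideal.span {x}) :=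
  Nat.pos_of_ne_zero fun h => hx (Ideal.span_singleton_eq_bot.mp (absNorm_eq_zero_iff.mp h))

theorem lterm_eq (s : ℂ) (x : 𝓞 K) :
    lterm s x = (weightS (intEmb K x) : ℂ) * ((absNorm (Ideal.span {x}) : ℕ) : ℂ) ^ (-s) := by
  rcases eq_or_ne x 0 with rfl | hx
  · rw [lterm_zero, intEmb_zero, weightS_zero, Complex.ofReal_zero, zero_mul]
  · rw [lterm, symTerm, logN, norm_intEmb, Complex.cpow_def_of_ne_zero
      (Nat.cast_ne_zero.mpr (absNorm_span_pos hx).ne'), ← Complex.natCast_log, mul_comm (-s)]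

/-- **An ideal and the whole ring.** -/
theorem exists_ideal (J : (Ideal (𝓞 K))⁰) :
    ∃ H : ℂ → ℂ, Differentiable ℂ H ∧ ∀ s : ℂ, 1 < s.re →
      latZ K s - (absNorm J.1 : ℂ) * latL J.1 s = H s := by
  have hJ : J.1 ≠ ⊥ := nonZeroDivisors.coe_ne_zero J
  have : Finite (𝓞 K ⧸ J.1) :=
    Ideal.finiteQuotientOfFreeOfNeBot J.1 (nonZeroDivisors.coe_ne_zero J)
  have : Fintype (𝓞 K ⧸ J.1) := Fintype.ofFinite _
  choose H hH hH' using fun t : 𝓞 K ⧸ J.1 =>
    exists_entire fun n => extends_coset J.1 hJ n (Quotient.out t)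
  refine ⟨fun s => ∑ t, H t s, Differentiable.fun_sum fun t _ => hH t, fun s hs => ?_⟩
  have hmk : ∀ t : 𝓞 K ⧸ J.1, Ideal.Quotient.mk J.1 (Quotient.out t) = t := Quotient.out_eq
  let e : (𝓞 K ⧸ J.1) × J.1 → 𝓞 K := fun ty => Quotient.out ty.1 + (ty.2 : 𝓞 K)
  have he : Function.Bijective e := by
    constructor
    · rintro ⟨t, y⟩ ⟨t', y'⟩ h
      obtain rfl : t = t' := by
        have := congrArg (Ideal.Quotient.mk J.1) h
        simpa [e, hmk, Ideal.Quotient.eq_zero_iff_mem.mpr y.2,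
          Ideal.Quotient.eq_zero_iff_mem.mpr y'.2] using this
      simpa [e] using h
    · intro x
      refine ⟨⟨Ideal.Quotient.mk J.1 x, ⟨x - Quotient.out (Ideal.Quotient.mk J.1 x), ?_⟩⟩, ?_⟩
      · rw [← Ideal.Quotient.eq_zero_iff_mem, map_sub, hmk, sub_self]
      · simp [e]
  have hsum : Summable fun ty => lterm s (e ty) := (summable_lterm hs).comp_injective he.1
  rw [latZ, ← (Equiv.ofBijective e he).tsum_eq]
  simp only [Equiv.ofBijective_apply]
  rw [hsum.tsum_prod, tsum_fintype,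
    show (absNorm J.1 : ℂ) * latL J.1 s = ∑ _t : 𝓞 K ⧸ J.1, latL J.1 s by
      rw [Finset.sum_const, Finset.card_univ, nsmul_eq_mul, Ideal.absNorm_apply,
        Submodule.cardQuot_apply, Nat.card_eq_fintype_card],
    ← Finset.sum_sub_distrib]
  exact Finset.sum_congr rfl fun t _ => hH' t s hs

theorem absNorm_span_natCast (n : ℕ) :
    absNorm (Ideal.span {(n : 𝓞 K)}) = n ^ finrank ℚ K := by
  rw [Ideal.absNorm_span_singleton, show (n : 𝓞 K) = algebraMap ℤ (𝓞 K) n by simp,
    Algebra.norm_algebraMap]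
  simp [Int.natAbs_pow, RingOfIntegers.rank]

theorem latL_span_natCast {m : ℕ} (hm : m ≠ 0) (s : ℂ) :
    latL (Ideal.span {(m : 𝓞 K)}) s = ((m ^ finrank ℚ K : ℕ) : ℂ) ^ (-s) * latZ K s := by
  let e : 𝓞 K → Ideal.span {(m : 𝓞 K)} := fun x =>
    ⟨(m : 𝓞 K) * x, Ideal.mem_span_singleton.mpr (dvd_mul_right _ _)⟩
  have he : Function.Bijective e := ⟨fun x y h =>
    mul_left_cancel₀ (Nat.cast_ne_zero.mpr hm) (congrArg Subtype.val h), fun y => by
      obtain ⟨x, hx⟩ := Ideal.mem_span_singleton.mp y.2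
      exact ⟨x, Subtype.ext hx.symm⟩⟩
  rw [latL, ← (Equiv.ofBijective e he).tsum_eq, latZ, ← tsum_mul_left]
  refine tsum_congr fun x => ?_
  show lterm s ((m : 𝓞 K) * x) = _
  have hhom := isSymbol_weightS.homog (intEmb K x) (m : ℝ) (by positivity)
  rw [pow_zero, inv_one, one_mul] at hhom
  rw [lterm_eq, lterm_eq, intEmb_natCast_mul, hhom, ← Ideal.span_singleton_mul_span_singleton,
    map_mul, absNorm_span_natCast, Nat.cast_mul, Complex.natCast_mul_natCast_cpow, mul_left_comm]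

/-- `1 - M ^ (1 - s)`. -/
def twistFactor (M : ℕ) (s : ℂ) : ℂ := 1 - (M : ℂ) ^ (1 - s)

theorem twistFactor_one (M : ℕ) : twistFactor M 1 = 0 := by simp [twistFactor]

theorem differentiable_twistFactor {M : ℕ} (hM : M ≠ 0) : Differentiable ℂ (twistFactor M) :=
  ((differentiable_id.const_sub 1).const_cpow (Or.inl (Nat.cast_ne_zero.mpr hM))).const_sub 1

theorem deriv_twistFactor_one {M : ℕ} (hM : M ≠ 0) :
    deriv (twistFactor M) 1 = Complex.log M := by
  have h := ((((hasDerivAt_id (1 : ℂ)).const_sub 1).const_cpow (c := (M : ℂ))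
    (Or.inl (Nat.cast_ne_zero.mpr hM))).const_sub 1).deriv
  rw [show twistFactor M = fun s : ℂ => 1 - (M : ℂ) ^ (1 - s) from rfl]
  simpa using h

theorem exists_twisted (m : ℕ) (hm : m ≠ 0) :
    ∃ H : ℂ → ℂ, Differentiable ℂ H ∧ ∀ s : ℂ, 1 < s.re →
      twistFactor (m ^ finrank ℚ K) s * latZ K s = H s := by
  obtain ⟨H, hH, h⟩ := exists_ideal (K := K) ⟨Ideal.span {(m : 𝓞 K)},
    mem_nonZeroDivisors_iff_ne_zero.mpr fun h =>
      (Nat.cast_ne_zero.mpr hm : (m : 𝓞 K) ≠ 0) (Ideal.span_singleton_eq_bot.mp h)⟩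
  refine ⟨H, hH, fun s hs => ?_⟩
  rw [← h s hs, latL_span_natCast hm, absNorm_span_natCast, twistFactor, ← mul_assoc, sub_mul,
    one_mul, sub_eq_add_neg (1 : ℂ) s,
    Complex.cpow_add _ _ (Nat.cast_ne_zero.mpr (pow_ne_zero _ hm)), Complex.cpow_one]

theorem twistFactor_two_three {d : ℕ} (hd : d ≠ 0) {s : ℂ} (h2 : twistFactor (2 ^ d) s = 0)
    (h3 : twistFactor (3 ^ d) s = 0) : s = 1 := by
  have key : ∀ m : ℕ, 0 < m → twistFactor (m ^ d) s = 0 →
      ∃ k : ℤ, ((d : ℂ) * Real.log m) * (1 - s) = k * (2 * Real.pi * Complex.I) := fun m hm h => by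
    rw [twistFactor, sub_eq_zero, eq_comm, Complex.cpow_def_of_ne_zero
      (Nat.cast_ne_zero.mpr (pow_ne_zero d hm.ne')), Complex.exp_eq_one_iff,
      ← Complex.natCast_log, Nat.cast_pow, Real.log_pow] at h
    push_cast at h
    rw [Complex.natCast_log]
    exact h
  obtain ⟨k, hk⟩ := key 2 two_pos h2
  obtain ⟨j, hj⟩ := key 3 three_pos h3
  have hπ : (2 : ℂ) * Real.pi * Complex.I ≠ 0 := by simp [Real.pi_ne_zero]
  have hkj : (k : ℂ) * Real.log 3 = j * Real.log 2 := by
    refine mul_right_cancel₀ hπ ?_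
    push_cast at hk hj
    linear_combination (-(Real.log 3 : ℂ)) * hk + (Real.log 2 : ℂ) * hj
  have hkj' : (k : ℝ) * Real.log 3 = j * Real.log 2 := by exact_mod_cast hkj
  have hk0 : k = 0 := by
    have h := congrArg (fun t : ℝ => |t|) hkj'
    simp only [abs_mul, abs_of_pos (Real.log_pos one_lt_two),
      abs_of_pos (Real.log_pos (show (1 : ℝ) < 3 by norm_num))] at h
    rw [← Int.cast_abs, ← Int.cast_abs, ← Int.natCast_natAbs, ← Int.natCast_natAbs,
      Int.cast_natCast, Int.cast_natCast, ← Real.log_pow, ← Real.log_pow] at h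
    have h' : (3 : ℕ) ^ k.natAbs = 2 ^ j.natAbs := by
      exact_mod_cast Real.log_injOn_pos (Set.mem_Ioi.mpr (by positivity))
        (Set.mem_Ioi.mpr (by positivity)) h
    by_contra hk0
    have hodd : Odd ((3 : ℕ) ^ k.natAbs) := Odd.pow (by decide)
    rw [h'] at hodd
    rcases Nat.eq_zero_or_pos j.natAbs with hj0 | hj0
    · rw [hj0, pow_zero] at h'
      exact hk0 (Int.natAbs_eq_zero.mp ((Nat.pow_eq_one.mp h').resolve_left (by norm_num)))
    · exact Nat.not_even_iff_odd.mpr hodd (Nat.even_pow.mpr ⟨even_two, hj0.ne'⟩)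
  rw [hk0, Int.cast_zero, zero_mul, mul_eq_zero, mul_eq_zero] at hk
  rcases hk with (h | h) | h
  · exact absurd (Nat.cast_eq_zero.mp h) hd
  · exact absurd (Complex.ofReal_eq_zero.mp h) (by positivity)
  · exact (sub_eq_zero.mp h).symm

theorem dslope_twistFactor_two_three (s : ℂ) :
    dslope (twistFactor (2 ^ finrank ℚ K)) 1 s ≠ 0 ∨
      dslope (twistFactor (3 ^ finrank ℚ K)) 1 s ≠ 0 := by
  rcases eq_or_ne s 1 with rfl | hs
  · refine Or.inl ?_
    rw [dslope_same, deriv_twistFactor_one (pow_ne_zero _ two_ne_zero), ← Complex.natCast_log,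
      Complex.ofReal_ne_zero]
    refine (Real.log_pos ?_).ne'
    exact_mod_cast Nat.one_lt_two_pow finrank_pos.ne'
  · by_contra h
    push Not at h
    have e : ∀ M : ℕ, dslope (twistFactor M) 1 s = 0 → twistFactor M s = 0 := fun M hM => by
      have h' := sub_smul_dslope (twistFactor M) 1 s
      rw [hM, smul_zero, twistFactor_one, sub_zero] at h'
      exact h'.symm
    exact hs (twistFactor_two_three finrank_pos.ne' (e _ h.1) (e _ h.2))

theorem differentiable_dslope {f : ℂ → ℂ} (hf : Differentiable ℂ f) (c : ℂ) :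
    Differentiable ℂ (dslope f c) :=
  differentiableOn_univ.mp ((Complex.differentiableOn_dslope univ_mem).mpr hf.differentiableOn)

theorem eq_of_eq_halfPlane {f g : ℂ → ℂ} (hf : Differentiable ℂ f) (hg : Differentiable ℂ g)
    (h : ∀ s : ℂ, 1 < s.re → f s = g s) : f = g := by
  refine (Complex.analyticOnNhd_univ_iff_differentiable.mpr hf).eq_of_eventuallyEq
    (Complex.analyticOnNhd_univ_iff_differentiable.mpr hg) (z₀ := 2) ?_
  filter_upwards [(isOpen_lt continuous_const Complex.continuous_re).mem_nhds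
    (show (1 : ℝ) < (2 : ℂ).re by norm_num)] with s hs
  exact h s hs

variable (K) in
/-- **`(s - 1) Z(s)` is entire.** -/
theorem exists_latZ : ∃ G : ℂ → ℂ, Differentiable ℂ G ∧
    ∀ s : ℂ, 1 < s.re → (s - 1) * latZ K s = G s := by
  set M₂ := 2 ^ finrank ℚ K
  set M₃ := 3 ^ finrank ℚ K
  obtain ⟨H₂, hH₂, h₂⟩ := exists_twisted (K := K) 2 two_ne_zero
  obtain ⟨H₃, hH₃, h₃⟩ := exists_twisted (K := K) 3 three_ne_zero
  set q₂ := dslope (twistFactor M₂) 1
  set q₃ := dslope (twistFactor M₃) 1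
  have hq₂ : Differentiable ℂ q₂ :=
    differentiable_dslope (differentiable_twistFactor (pow_ne_zero _ two_ne_zero)) 1
  have hq₃ : Differentiable ℂ q₃ :=
    differentiable_dslope (differentiable_twistFactor (pow_ne_zero _ three_ne_zero)) 1
  have hq : ∀ (M : ℕ) (s : ℂ), (s - 1) * dslope (twistFactor M) 1 s = twistFactor M s := fun M s =>
    by simpa [twistFactor_one] using sub_smul_dslope (twistFactor M) 1 s
  have hval₂ : ∀ s : ℂ, 1 < s.re → (s - 1) * latZ K s * q₂ s = H₂ s := fun s hs => by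
    rw [← h₂ s hs, ← hq M₂ s]; ring
  have hval₃ : ∀ s : ℂ, 1 < s.re → (s - 1) * latZ K s * q₃ s = H₃ s := fun s hs => by
    rw [← h₃ s hs, ← hq M₃ s]; ring
  have hcross : (fun s => H₂ s * q₃ s) = fun s => H₃ s * q₂ s :=
    eq_of_eq_halfPlane (hH₂.mul hq₃) (hH₃.mul hq₂) fun s hs => by
      rw [← hval₂ s hs, ← hval₃ s hs]; ring
  refine ⟨fun s => if q₂ s ≠ 0 then H₂ s / q₂ s else H₃ s / q₃ s, fun z => ?_, fun s hs => ?_⟩
  · rcases dslope_twistFactor_two_three (K := K) z with h | h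
    · refine ((hH₂ z).div (hq₂ z) h).congr_of_eventuallyEq ?_
      filter_upwards [(hq₂.continuous.isOpen_preimage _ isOpen_ne).mem_nhds h] with s hs
      exact if_pos hs
    · refine ((hH₃ z).div (hq₃ z) h).congr_of_eventuallyEq ?_
      filter_upwards [(hq₃.continuous.isOpen_preimage _ isOpen_ne).mem_nhds h] with s hs
      split_ifs with h'
      · exact (div_eq_div_iff h' hs).mpr (congrFun hcross s)
      · rfl
  · simp only
    rcases dslope_twistFactor_two_three (K := K) s with h | h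
    · rw [if_pos h, ← hval₂ s hs, mul_div_cancel_right₀ _ h]
    · split_ifs with h'
      · rw [← hval₂ s hs, mul_div_cancel_right₀ _ h']
      · rw [← hval₃ s hs, mul_div_cancel_right₀ _ h]

/-- The zeta function of an ideal class. -/
def classZ (C : ClassGroup (𝓞 K)) (s : ℂ) : ℂ :=
  ∑' I : {I : (Ideal (𝓞 K))⁰ // ClassGroup.mk0 I = C}, FA.AbelianZeta.normPow s I.1

theorem latL_eq {C : ClassGroup (𝓞 K)} {J : (Ideal (𝓞 K))⁰} (hJ : ClassGroup.mk0 J = C⁻¹) {s : ℂ}
    (hs : 1 < s.re) :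
    latL J.1 s = Units.torsionOrder K * FA.AbelianZeta.normPow s J * classZ C s := by
  set S := {I : (Ideal (𝓞 K))⁰ // ClassGroup.mk0 I = C}
  have hp : ∀ I : S, ∃ g : 𝓞 K, g ≠ 0 ∧
      ((J * I.1 : (Ideal (𝓞 K))⁰) : Ideal (𝓞 K)) = Ideal.span {g} := by
    intro I
    have h1 : ClassGroup.mk0 (J * I.1) = 1 := by rw [map_mul, hJ, I.2, inv_mul_cancel]
    obtain ⟨g, hg⟩ := (ClassGroup.mk0_eq_one_iff (SetLike.coe_mem (J * I.1))).mp h1
    exact ⟨g, fun h => nonZeroDivisors.coe_ne_zero (J * I.1) (hg.trans (by rw [h]; simp)), hg⟩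
  choose g hg0 hg using hp
  have hgJ : ∀ I : S, g I ∈ J.1 := fun I => by
    have : g I ∈ ((J * I.1 : (Ideal (𝓞 K))⁰) : Ideal (𝓞 K)) := by
      rw [hg I]; exact Ideal.mem_span_singleton_self _
    rw [Submonoid.coe_mul] at this
    exact (Ideal.mul_le_inf this).1
  let e : S × (𝓞 K)ˣ → J.1 := fun Iu =>
    ⟨(Iu.2 : 𝓞 K) * g Iu.1, J.1.mul_mem_left _ (hgJ Iu.1)⟩
  have he : Function.Injective e := by
    rintro ⟨I, u⟩ ⟨I', u'⟩ h
    have h' : (u : 𝓞 K) * g I = u' * g I' := congrArg Subtype.val h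
    obtain rfl : I = I' := by
      have h3 : ((J * I.1 : (Ideal (𝓞 K))⁰) : Ideal (𝓞 K)) = ↑(J * I'.1) := by
        rw [hg I, hg I', ← Ideal.span_singleton_mul_left_unit u.isUnit, h',
          Ideal.span_singleton_mul_left_unit u'.isUnit]
      exact Subtype.ext (mul_left_cancel (Subtype.ext h3))
    rw [mul_right_cancel₀ (hg0 I) h' |> Units.ext]
  have hsupp : Function.support (fun x : J.1 => lterm s (x : 𝓞 K)) ⊆ Set.range e := by
    intro x hx
    have hx0 : (x : 𝓞 K) ≠ 0 := fun h => hx (by simp [h, lterm_zero])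
    obtain ⟨I, hI⟩ := Ideal.dvd_iff_le.mpr ((Ideal.span_singleton_le_iff_mem _).mpr x.2)
    have hspan : Ideal.span {(x : 𝓞 K)} ≠ 0 := by simpa using hx0
    have hI0 : I ≠ 0 := fun h => hspan (by rw [hI, h, mul_zero])
    let I' : (Ideal (𝓞 K))⁰ := ⟨I, mem_nonZeroDivisors_iff_ne_zero.mpr hI0⟩
    have hC : ClassGroup.mk0 I' = C := by
      have : ClassGroup.mk0 (J * I') = 1 :=
        (ClassGroup.mk0_eq_one_iff (SetLike.coe_mem (J * I'))).mpr ⟨(x : 𝓞 K), hI.symm⟩
      rw [map_mul, hJ, inv_mul_eq_one] at this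
      exact this.symm
    obtain ⟨u, hu⟩ := Ideal.span_singleton_eq_span_singleton.mp
      ((hg ⟨I', hC⟩).symm.trans hI.symm)
    exact ⟨(⟨I', hC⟩, u), Subtype.ext (by simpa [e, mul_comm] using hu)⟩
  have hsum : Summable fun Iu => lterm s (e Iu : 𝓞 K) :=
    ((summable_lterm hs).comp_injective Subtype.val_injective).comp_injective he
  have hterm : ∀ I : S, ∑' u : (𝓞 K)ˣ, lterm s (e (I, u) : 𝓞 K) =
      Units.torsionOrder K * FA.AbelianZeta.normPow s J * FA.AbelianZeta.normPow s I.1 := by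
    intro I
    have hn : mixedEmbedding.norm (intEmb K (g I)) ≠ 0 := by
      rw [norm_intEmb, Nat.cast_ne_zero]
      exact (absNorm_span_pos (hg0 I)).ne'
    have h1 : ∀ u : (𝓞 K)ˣ, lterm s (e (I, u) : 𝓞 K) =
        (weightS (u • intEmb K (g I)) : ℂ) * FA.AbelianZeta.normPow s (J * I.1) := by
      intro u
      show lterm s ((u : 𝓞 K) * g I) = _
      rw [lterm_eq, show FA.AbelianZeta.normPow s (J * I.1) =
          ((absNorm ((J * I.1 : (Ideal (𝓞 K))⁰) : Ideal (𝓞 K)) : ℕ) : ℂ) ^ (-s) from rfl,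
        hg I, Ideal.span_singleton_mul_left_unit u.isUnit]
      simp [intEmb, unitSMul_smul]
    simp only [h1]
    rw [tsum_mul_right, ← Complex.ofReal_tsum, tsum_weightS_unit_smul _ hn, map_mul, mul_assoc]
    push_cast
    rfl
  rw [latL, ← he.tsum_eq hsupp, hsum.tsum_prod, classZ]
  simp only [hterm]
  exact tsum_mul_left

theorem dedekindZeta_eq_sum_classZ {s : ℂ} (hs : 1 < s.re) :
    dedekindZeta K s = ∑ C : ClassGroup (𝓞 K), classZ C s := by
  have h : Summable fun c => FA.AbelianZeta.normPow s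
      ((Equiv.sigmaFiberEquiv (ClassGroup.mk0 (R := 𝓞 K))) c) :=
    (Equiv.sigmaFiberEquiv _).summable_iff.mpr (FA.AbelianZeta.summable_norm_normPow hs).of_norm
  rw [FA.AbelianZeta.dedekindZeta_eq_tsum hs,
    ← (Equiv.sigmaFiberEquiv (ClassGroup.mk0 (R := 𝓞 K))).tsum_eq, h.tsum_sigma, tsum_fintype]
  rfl

variable (K) in
/-- **The continuation of the class zeta functions.** -/
theorem exists_classG : ∃ G : ClassGroup (𝓞 K) → ℂ → ℂ,
    (∀ C, Differentiable ℂ (G C)) ∧
    (∀ C, G C 1 = (dedekindZeta_residue K / classNumber K : ℝ)) ∧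
    ∀ C (s : ℂ), 1 < s.re → (s - 1) * classZ C s = G C s := by
  obtain ⟨Z, hZ, hZ'⟩ := exists_latZ K
  choose J hJ using fun C : ClassGroup (𝓞 K) => ClassGroup.mk0_surjective C⁻¹
  choose H hH hH' using fun C => exists_ideal (J C)
  set τ : ℂ := (Units.torsionOrder K : ℂ) with hτ
  have hτ0 : τ ≠ 0 := Nat.cast_ne_zero.mpr (Units.torsionOrder_pos K).ne'
  set N : ClassGroup (𝓞 K) → ℂ := fun C => ((absNorm (J C).1 : ℕ) : ℂ)
  have hN0 : ∀ C, N C ≠ 0 := fun C => Nat.cast_ne_zero.mpr (absNorm_ne_zero_of_nonZeroDivisors _)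
  set G : ClassGroup (𝓞 K) → ℂ → ℂ := fun C s =>
    (Z s - (s - 1) * H C s) * (τ⁻¹ * N C ^ (s - 1))
  have hG : ∀ C, Differentiable ℂ (G C) := fun C =>
    (hZ.sub ((differentiable_id.sub_const 1).mul (hH C))).mul
      (((differentiable_id.sub_const 1).const_cpow (Or.inl (hN0 C))).const_mul _)
  have hG' : ∀ C (s : ℂ), 1 < s.re → (s - 1) * classZ C s = G C s := fun C s hs => by
    have h1 := latL_eq (hJ C) hs
    have h2 : FA.AbelianZeta.normPow s (J C) = N C ^ (-s) := rfl
    have h3 := Complex.cpow_add (x := N C) (-s) (s - 1) (hN0 C)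
    rw [show -s + (s - 1) = -1 by ring, Complex.cpow_neg_one] at h3
    simp only [G]
    rw [← hZ' s hs, ← hH' C s hs, h1, h2, ← hτ]
    have h4 : N C * (N C ^ (-s) * N C ^ (s - 1)) = 1 := by rw [← h3, mul_inv_cancel₀ (hN0 C)]
    have h5 : τ * τ⁻¹ = 1 := mul_inv_cancel₀ hτ0
    linear_combination -((s - 1) * classZ C s * (N C * (N C ^ (-s) * N C ^ (s - 1)))) * h5 -
      (s - 1) * classZ C s * h4
  refine ⟨G, hG, fun C₀ => ?_, hG'⟩
  have hone : ∀ C, G C 1 = Z 1 * τ⁻¹ := fun C => by simp [G]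
  have hres : ∑ C : ClassGroup (𝓞 K), G C 1 = (dedekindZeta_residue K : ℂ) := by
    have hcont : Continuous (fun s : ℂ => ∑ C : ClassGroup (𝓞 K), G C s) :=
      (Differentiable.fun_sum fun C _ => hG C).continuous
    have h1 : Tendsto (fun s : ℝ => ∑ C : ClassGroup (𝓞 K), G C (s : ℂ)) (𝓝[>] 1)
        (𝓝 (∑ C : ClassGroup (𝓞 K), G C 1)) :=
      (hcont.tendsto 1).comp ((Complex.continuous_ofReal.tendsto' 1 1 Complex.ofReal_one).mono_left
        nhdsWithin_le_nhds)
    refine tendsto_nhds_unique h1 ((tendsto_sub_one_mul_dedekindZeta_nhdsGT K).congr' ?_)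
    filter_upwards [self_mem_nhdsWithin] with s hs
    rw [dedekindZeta_eq_sum_classZ (by simpa using hs), Finset.mul_sum]
    exact Finset.sum_congr rfl fun C _ => hG' C _ (by simpa using hs)
  rw [Finset.sum_congr rfl fun C _ => (hone C).trans (hone C₀).symm, Finset.sum_const,
    Finset.card_univ, nsmul_eq_mul] at hres
  rw [Complex.ofReal_div, ← hres, classNumber, Complex.ofReal_natCast,
    mul_div_cancel_left₀ _ (Nat.cast_ne_zero.mpr Fintype.card_ne_zero)]

end FA.PrimeIdeal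

end
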