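import Fermat.Agent.PrimeIdealTheorem.Smooth
import Mathlib.Analysis.Complex.LocallyUniformLimit
import Mathlib.Analysis.Complex.CauchyIntegral
import Mathlib.Analysis.Complex.Convex
import Mathlib.Analysis.Calculus.MeanValue

/-!
# Lattice sums of symbols are entire

By Taylor's formula the sum over an ideal of `F(y + b) - F(y)`, `F = W N^(-s)`, is the sum of those
of the derivatives up to a remainder holomorphic on `1 - n/d < re s`; for `b` in the ideal it is
zero, so by downward induction the sums of first derivatives are entire, and so is the difference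
between a coset and its ideal.
-/

set_option autoImplicit false
set_option linter.unusedSectionVars false

noncomputable section

open NumberField NumberField.mixedEmbedding Module Filter Topology Ideal FA.Ext
open Nat (factorial)
open scoped Classical

namespace FA.PrimeIdeal

variable {K : Type*} [Field K] [NumberField K]

variable (K) in
/-- `1 - n/d < re s`. -/
def region (n : ℕ) : Set ℂ := {s : ℂ | 1 - (n : ℝ) / finrank ℚ K < s.re}

theorem isOpen_region (n : ℕ) : IsOpen (region K n) :=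
  isOpen_lt continuous_const Complex.continuous_re

theorem region_mono {n n' : ℕ} (h : n ≤ n') : region K n ⊆ region K n' := fun _ hs =>
  lt_of_le_of_lt (sub_le_sub_left (div_le_div_of_nonneg_right
    (show (n : ℝ) ≤ n' from Nat.cast_le.mpr h) (Nat.cast_nonneg (finrank ℚ K))) 1) hs

variable (K) in
/-- A function on `1 < re s` continues to `1 - n/d < re s`. -/
def Extends (n : ℕ) (Φ : ℂ → ℂ) : Prop :=
  ∃ H : ℂ → ℂ, DifferentiableOn ℂ H (region K n) ∧ ∀ s : ℂ, 1 < s.re → Φ s = H s

theorem Extends.congr {n : ℕ} {Φ Ψ : ℂ → ℂ} (h : Extends K n Φ)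
    (he : ∀ s : ℂ, 1 < s.re → Ψ s = Φ s) : Extends K n Ψ := by
  obtain ⟨H, hH, hΦ⟩ := h
  exact ⟨H, hH, fun s hs => (he s hs).trans (hΦ s hs)⟩

theorem Extends.sum {ι : Type*} {n : ℕ} (S : Finset ι) {c Φ : ι → ℂ → ℂ}
    (hc : ∀ i ∈ S, Differentiable ℂ (c i)) (h : ∀ i ∈ S, Extends K n (Φ i)) :
    Extends K n fun s => ∑ i ∈ S, c i s * Φ i s := by
  choose H hH hΦ using fun i : S => h i i.2
  refine ⟨fun s => ∑ i : S, c i s * H i s,
    DifferentiableOn.fun_sum fun i _ => (hc i i.2).differentiableOn.mul (hH i), fun s hs => ?_⟩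
  dsimp only
  rw [← Finset.sum_coe_sort]
  exact Finset.sum_congr rfl fun i _ => by rw [hΦ i s hs]

theorem Extends.const_mul {n : ℕ} {Φ : ℂ → ℂ} (h : Extends K n Φ) (z : ℂ) :
    Extends K n fun s => z * Φ s := by
  obtain ⟨H, hH, hΦ⟩ := h
  exact ⟨fun s => z * H s, hH.const_mul z, fun s hs => by simp only [hΦ s hs]⟩

theorem Extends.add {n : ℕ} {Φ Ψ : ℂ → ℂ} (h : Extends K n Φ) (h' : Extends K n Ψ) :
    Extends K n fun s => Φ s + Ψ s := by
  obtain ⟨H, hH, hΦ⟩ := h
  obtain ⟨H', hH', hΨ⟩ := h'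
  exact ⟨fun s => H s + H' s, hH.add hH', fun s hs => by simp only [hΦ s hs, hΨ s hs]⟩

/-- The sum over an ideal. -/
def latSum (J : Ideal (𝓞 K)) (φ : ℂ → mixedSpace K → ℂ) (s : ℂ) : ℂ :=
  ∑' y : J, φ s (intEmb K (y : 𝓞 K))

theorem finite_norm_lt (J : Ideal (𝓞 K)) (R : ℝ) :
    {y : J | ‖intEmb K (y : 𝓞 K)‖ < R}.Finite := by
  set e : ℝ := -((finrank ℚ K : ℝ) + 1) with he
  have hsum : Summable fun y : J => ‖intEmb K (y : 𝓞 K)‖ ^ e :=
    (summable_norm_intEmb (by linarith : e < -(finrank ℚ K : ℝ))).comp_injective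
      Subtype.val_injective
  have hR : 0 < max R 1 := lt_max_of_lt_right one_pos
  have h := hsum.tendsto_cofinite_zero.eventually (gt_mem_nhds (Real.rpow_pos_of_pos hR e))
  refine ((eventually_cofinite.mp h).union (Set.finite_singleton (0 : J))).subset fun y hy => ?_
  rcases eq_or_ne y 0 with rfl | hy0
  · exact Or.inr rfl
  refine Or.inl fun hlt => ?_
  have hpos : 0 < ‖intEmb K (y : 𝓞 K)‖ := norm_pos_iff.mpr fun h =>
    hy0 (Subtype.ext (intEmb_injective (h.trans intEmb_zero.symm)))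
  exact (lt_irrefl _) (hlt.trans_le (Real.rpow_le_rpow_of_nonpos hpos
    (hy.le.trans (le_max_left _ _)) (by have := (finrank ℚ K).cast_nonneg (α := ℝ); linarith)))

/-- **A sum holomorphic where it converges.** -/
theorem extends_of_bound (J : Ideal (𝓞 K)) (n : ℕ) {φ : ℂ → mixedSpace K → ℂ}
    (hd : ∀ x, Differentiable ℂ fun s => φ s x)
    (hb : ∀ B : ℝ, ∀ σ : ℝ, ∃ D R : ℝ, ∀ s : ℂ, σ ≤ s.re → ‖s‖ ≤ B → ∀ x : mixedSpace K,
      R ≤ ‖x‖ → ‖φ s x‖ ≤ D * ‖x‖ ^ (-((finrank ℚ K : ℝ) * σ + n))) :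
    Extends K n (latSum J φ) := by
  refine ⟨latSum J φ, fun z hz => DifferentiableAt.differentiableWithinAt ?_, fun _ _ => rfl⟩
  set d : ℝ := (finrank ℚ K : ℝ) with hd'
  have hd0 : 0 < d := Nat.cast_pos.mpr finrank_pos
  obtain ⟨σ, hσ, hσz⟩ := exists_between (show 1 - (n : ℝ) / d < z.re from hz)
  obtain ⟨D, R, hDR⟩ := hb (‖z‖ + 1) σ
  set e : ℝ := -(d * σ + n) with he
  have hed : e < -d := by
    have := mul_lt_mul_of_pos_left hσ hd0
    rw [mul_sub, mul_one, mul_div_cancel₀ _ hd0.ne'] at this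
    linarith
  have hfin := finite_norm_lt J R
  choose M hM using fun y : J =>
    (isCompact_closedBall (0 : ℂ) (‖z‖ + 1)).exists_bound_of_continuousOn
    (f := fun s => φ s (intEmb K (y : 𝓞 K))) (hd _).continuous.continuousOn
  set u : J → ℝ := fun y =>
    if ‖intEmb K (y : 𝓞 K)‖ < R then M y else D * ‖intEmb K (y : 𝓞 K)‖ ^ e
  have hu : Summable u := by
    have h : Summable fun y : J => D * ‖intEmb K (y : 𝓞 K)‖ ^ e :=
      ((summable_norm_intEmb hed).comp_injective Subtype.val_injective).mul_left D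
    refine h.congr_cofinite ?_
    filter_upwards [hfin.eventually_cofinite_notMem] with y hy
    exact (if_neg hy).symm
  set V : Set ℂ := {s : ℂ | σ < s.re ∧ ‖s‖ < ‖z‖ + 1}
  have hV : IsOpen V := (isOpen_lt continuous_const Complex.continuous_re).inter
    (isOpen_lt continuous_norm continuous_const)
  refine (Complex.differentiableOn_tsum_of_summable_norm hu (fun y => (hd _).differentiableOn) hV
    fun y s hs => ?_).differentiableAt (hV.mem_nhds ⟨hσz, by linarith⟩)
  simp only [u]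
  split_ifs with hy
  · exact hM y s (mem_closedBall_zero_iff.mpr hs.2.le)
  · exact hDR s hs.1.le hs.2.le _ (not_lt.mp hy)

theorem exists_symTerm_bound {k : ℕ} {W : mixedSpace K → ℝ} (hW : IsSymbol k W) (B : ℝ) :
    ∃ A, 0 ≤ A ∧ ∀ s : ℂ, ‖s‖ ≤ B → ∀ x : mixedSpace K,
      ‖symTerm W s x‖ ≤ A * ‖x‖ ^ (-((finrank ℚ K : ℝ) * s.re + k)) := by
  obtain ⟨A, hA0, hA⟩ := exists_symTerm_le hW
  set d : ℝ := (finrank ℚ K : ℝ) with hd
  refine ⟨A * suppConst K ^ (-(d * max B 0)), by have := suppConst_pos (K := K); positivity,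
    fun s hs x => (hA s x).trans ?_⟩
  refine mul_le_mul_of_nonneg_right (mul_le_mul_of_nonneg_left ?_ hA0) (by positivity)
  refine Real.rpow_le_rpow_of_exponent_ge suppConst_pos suppConst_le_one ?_
  exact neg_le_neg (mul_le_mul_of_nonneg_left
    (((Complex.abs_re_le_norm s).trans hs).trans (le_max_left _ _)) (Nat.cast_nonneg _))

theorem summable_symTerm {k : ℕ} {W : mixedSpace K → ℝ} (hW : IsSymbol k W) {s : ℂ}
    (hs : 1 < s.re) : Summable fun x : 𝓞 K => symTerm W s (intEmb K x) := by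
  obtain ⟨A, -, hA⟩ := exists_symTerm_bound hW ‖s‖
  refine Summable.of_norm_bounded ((summable_norm_intEmb ?_).mul_left A) fun x => hA s le_rfl _
  have hd : (0 : ℝ) < finrank ℚ K := Nat.cast_pos.mpr finrank_pos
  nlinarith [(k.cast_nonneg : (0 : ℝ) ≤ k)]

theorem extends_symTerm (J : Ideal (𝓞 K)) {n k : ℕ} (hnk : n ≤ k) {W : mixedSpace K → ℝ}
    (hW : IsSymbol k W) : Extends K n (latSum J (symTerm W)) := by
  refine extends_of_bound J n (differentiable_symTerm W) fun B σ => ?_
  obtain ⟨A, hA0, hA⟩ := exists_symTerm_bound hW B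
  refine ⟨A, 1, fun s hσ hB x hx => (hA s hB x).trans (mul_le_mul_of_nonneg_left
    (Real.rpow_le_rpow_of_exponent_le hx (neg_le_neg ?_)) hA0)⟩
  gcongr

theorem summable_symDeriv (J : Ideal (𝓞 K)) (a : mixedSpace K) {k : ℕ} {W : mixedSpace K → ℝ}
    (hW : IsSymbol k W) {s : ℂ} (hs : 1 < s.re) :
    Summable fun y : J => symDeriv a W s (intEmb K (y : 𝓞 K)) := by
  simp only [symDeriv]
  exact ((summable_symTerm (isSymbol_dW a hW) hs).sub
    ((summable_symTerm (isSymbol_dLog a hW) hs).mul_left s)).comp_injective Subtype.val_injective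

theorem extends_symDeriv_of_le (J : Ideal (𝓞 K)) (a : mixedSpace K) {n k : ℕ} (hnk : n ≤ k + 1)
    {W : mixedSpace K → ℝ} (hW : IsSymbol k W) : Extends K n (latSum J (symDeriv a W)) := by
  obtain ⟨H, hH, h⟩ := extends_symTerm J hnk (isSymbol_dW a hW)
  obtain ⟨H', hH', h'⟩ := extends_symTerm J hnk (isSymbol_dLog a hW)
  refine ⟨fun s => H s - s * H' s, hH.sub (differentiableOn_id.mul hH'), fun s hs => ?_⟩
  dsimp only
  have h1 : Summable fun y : J => symTerm (dW a W) s (intEmb K (y : 𝓞 K)) :=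
    (summable_symTerm (isSymbol_dW a hW) hs).comp_injective Subtype.val_injective
  have h2 : Summable fun y : J => s * symTerm (dLog a W) s (intEmb K (y : 𝓞 K)) :=
    ((summable_symTerm (isSymbol_dLog a hW) hs).mul_left s).comp_injective Subtype.val_injective
  rw [← h s hs, ← h' s hs, latSum, latSum, latSum, ← tsum_mul_left, ← h1.tsum_sub h2]
  rfl

/-- Taylor's formula with a bound. -/
theorem norm_taylor_le (m : ℕ) : ∀ (F : ℕ → ℝ → ℂ) (M : ℝ),
    (∀ j, ∀ t ∈ Set.Icc (0 : ℝ) 1, HasDerivAt (F j) (F (j + 1) t) t) →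
    (∀ t ∈ Set.Icc (0 : ℝ) 1, ‖F m t‖ ≤ M) → ∀ t ∈ Set.Icc (0 : ℝ) 1,
    ‖F 0 t - ∑ j ∈ Finset.range m, ((factorial j : ℕ) : ℂ)⁻¹ * (t : ℂ) ^ j * F j 0‖ ≤ M := by
  induction m with
  | zero => intro F M _ hM t ht; simpa using hM t ht
  | succ m ih =>
    intro F M hF hM t ht
    have hM0 : 0 ≤ M := (norm_nonneg _).trans (hM 0 ⟨le_rfl, zero_le_one⟩)
    have ih' := ih (fun j => F (j + 1)) M (fun j => hF (j + 1)) hM
    set G : ℝ → ℂ := fun u =>
      F 0 u - ∑ j ∈ Finset.range (m + 1), ((factorial j : ℕ) : ℂ)⁻¹ * (u : ℂ) ^ j * F j 0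
    have hG : ∀ u ∈ Set.Icc (0 : ℝ) 1, HasDerivWithinAt G
        (F 1 u - ∑ j ∈ Finset.range m, ((factorial j : ℕ) : ℂ)⁻¹ * (u : ℂ) ^ j * F (j + 1) 0)
        (Set.Icc 0 1) u := fun u hu => by
      have hp : HasDerivAt
          (fun v : ℝ => ∑ j ∈ Finset.range (m + 1), ((factorial j : ℕ) : ℂ)⁻¹ * (v : ℂ) ^ j * F j 0)
          (∑ j ∈ Finset.range (m + 1), ((factorial j : ℕ) : ℂ)⁻¹ *
            ((j : ℂ) * (u : ℂ) ^ (j - 1)) * F j 0) u :=
        HasDerivAt.fun_sum fun j _ => by
          have := ((hasDerivAt_pow j (u : ℂ)).comp_ofReal).const_mul ((factorial j : ℕ) : ℂ)⁻¹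
          exact this.mul_const _
      refine (((hF 0 u hu).sub hp).congr_deriv ?_).hasDerivWithinAt
      rw [Finset.sum_range_succ']
      simp only [Nat.cast_zero, zero_mul, mul_zero, add_zero, add_tsub_cancel_right]
      refine congrArg₂ _ rfl (Finset.sum_congr rfl fun j _ => ?_)
      have hj1 : ((j : ℂ) + 1) ≠ 0 := Nat.cast_add_one_ne_zero j
      have hj : ((factorial j : ℕ) : ℂ) ≠ 0 := Nat.cast_ne_zero.mpr j.factorial_ne_zero
      rw [Nat.factorial_succ]
      push_cast
      field_simp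
    have h := (convex_Icc (0 : ℝ) 1).norm_image_sub_le_of_norm_hasDerivWithin_le hG ih'
      ⟨le_rfl, zero_le_one⟩ ht
    have hG0 : G 0 = 0 := by simp [G, Finset.sum_range_succ']
    rw [hG0, sub_zero, Real.norm_eq_abs] at h
    refine h.trans (mul_le_of_le_one_right hM0 ?_)
    rw [sub_zero, abs_of_nonneg ht.1]
    exact ht.2

/-- The remainder. -/
def taylorRem (a : mixedSpace K) (W : mixedSpace K → ℝ) (m : ℕ) (s : ℂ) (y : mixedSpace K) : ℂ :=
  symTerm W s (y + a) - ∑ j ∈ Finset.range m, ((factorial j : ℕ) : ℂ)⁻¹ * symIter a W j s y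

theorem extends_taylorRem (J : Ideal (𝓞 K)) (a : mixedSpace K) {n m k : ℕ} (hnm : n ≤ m)
    {W : mixedSpace K → ℝ} (hW : IsSymbol k W) : Extends K n (latSum J (taylorRem a W m)) := by
  refine extends_of_bound J n (fun x => (differentiable_symTerm W _).sub
    (Differentiable.fun_sum fun j _ => (Differentiable.fun_sum fun i _ =>
      (differentiable_pow i).mul (differentiable_symTerm _ x)).const_mul _)) fun B σ => ?_
  choose A hA0 hA using fun i => exists_symTerm_bound (isSymbol_iterW a hW m i) B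
  set d : ℝ := (finrank ℚ K : ℝ)
  set E : ℝ := d * max B 0 + ((k + m : ℕ) : ℝ)
  refine ⟨∑ i ∈ Finset.range (m + 1), max B 0 ^ i * A i * 2 ^ E, 2 * ‖a‖ + 2,
    fun s hσ hB y hy => ?_⟩
  set r := ‖y‖
  have hr : 1 ≤ r := by linarith [norm_nonneg a]
  have hseg : ∀ t ∈ Set.Icc (0 : ℝ) 1, r / 2 ≤ ‖y + t • a‖ ∧ ‖y + t • a‖ ≤ 2 * r := fun t ht => by
    have h1 : ‖t • a‖ ≤ ‖a‖ := by
      rw [_root_.norm_smul, Real.norm_of_nonneg ht.1]
      exact mul_le_of_le_one_left (norm_nonneg a) ht.2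
    have h2 := norm_sub_le (y + t • a) (t • a)
    rw [add_sub_cancel_right] at h2
    constructor <;> linarith [norm_add_le y (t • a), norm_nonneg a]
  have h := norm_taylor_le m (fun j t => symIter a W j s (y + t • a))
    ((∑ i ∈ Finset.range (m + 1), max B 0 ^ i * A i * 2 ^ E) * r ^ (-(d * σ + n)))
    (fun j t ht => hasDerivAt_symIter hW j s fun h => by
      have := (hseg t ht).1
      rw [h, norm_zero] at this
      linarith)
    (fun t ht => ?_) 1 ⟨zero_le_one, le_rfl⟩
  · simpa [taylorRem, symIter_zero] using h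
  obtain ⟨hlo, hhi⟩ := hseg t ht
  set z := ‖y + t • a‖
  set e : ℝ := -(d * s.re + ((k + m : ℕ) : ℝ))
  have hsB : ‖s‖ ≤ max B 0 := hB.trans (le_max_left _ _)
  have hz : 0 < z := by linarith
  have habs : |e| ≤ E := by
    rw [abs_neg]
    refine (abs_add_le _ _).trans (add_le_add ?_ (Nat.abs_cast _).le)
    rw [abs_mul, Nat.abs_cast]
    exact mul_le_mul_of_nonneg_left ((Complex.abs_re_le_norm s).trans hsB) (Nat.cast_nonneg _)
  have hze : z ^ e ≤ 2 ^ E * r ^ (-(d * σ + n)) := by
    have h1 : z ^ e ≤ 2 ^ E * r ^ e := by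
      rcases le_total 0 e with he | he
      · refine (Real.rpow_le_rpow hz.le hhi he).trans ?_
        rw [Real.mul_rpow zero_le_two (by linarith)]
        exact mul_le_mul_of_nonneg_right (Real.rpow_le_rpow_of_exponent_le one_le_two
          ((le_abs_self e).trans habs)) (by positivity)
      · refine (Real.rpow_le_rpow_of_nonpos (by linarith) hlo he).trans ?_
        rw [Real.div_rpow (by linarith) zero_le_two, div_eq_mul_inv, mul_comm, ← Real.rpow_neg
          zero_le_two]
        exact mul_le_mul_of_nonneg_right (Real.rpow_le_rpow_of_exponent_le one_le_two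
          ((neg_le_abs e).trans habs)) (by positivity)
    refine h1.trans (mul_le_mul_of_nonneg_left (Real.rpow_le_rpow_of_exponent_le hr ?_)
      (by positivity))
    have h2 := mul_le_mul_of_nonneg_left hσ (show 0 ≤ d from Nat.cast_nonneg _)
    have h3 : (n : ℝ) ≤ ((k + m : ℕ) : ℝ) := Nat.cast_le.mpr (hnm.trans (Nat.le_add_left _ _))
    simp only [e]
    linarith
  refine (norm_sum_le _ _).trans ?_
  rw [Finset.sum_mul]
  refine Finset.sum_le_sum fun i _ => ?_
  rw [norm_mul, norm_pow, mul_assoc (max B 0 ^ i), mul_assoc (max B 0 ^ i), mul_assoc (A i)]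
  refine mul_le_mul (pow_le_pow_left₀ (norm_nonneg _) hsB i) ((hA i s hB _).trans ?_)
    (norm_nonneg _) (by positivity)
  exact mul_le_mul_of_nonneg_left hze (hA0 i)

theorem summable_symIter (J : Ideal (𝓞 K)) (a : mixedSpace K) (j : ℕ) {k : ℕ}
    {W : mixedSpace K → ℝ} (hW : IsSymbol k W) {s : ℂ} (hs : 1 < s.re) :
    Summable fun y : J => symIter a W j s (intEmb K (y : 𝓞 K)) :=
  summable_sum fun i _ =>
    ((summable_symTerm (isSymbol_iterW a hW j i) hs).mul_left _).comp_injective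
    Subtype.val_injective

theorem latSum_symIter_succ (J : Ideal (𝓞 K)) (a : mixedSpace K) (j : ℕ) {k : ℕ}
    {W : mixedSpace K → ℝ} (hW : IsSymbol k W) {s : ℂ} (hs : 1 < s.re) :
    latSum J (symIter a W (j + 1)) s =
      ∑ i ∈ Finset.range (j + 1), s ^ i * latSum J (symDeriv a (iterW a W j i)) s := by
  simp only [latSum, symIter_succ, ← tsum_mul_left]
  exact Summable.tsum_finsetSum fun i _ =>
    (summable_symDeriv J a (isSymbol_iterW a hW j i) hs).mul_left _

theorem latSum_taylorRem (J : Ideal (𝓞 K)) (a : 𝓞 K) (m : ℕ) {k : ℕ} {W : mixedSpace K → ℝ}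
    (hW : IsSymbol k W) {s : ℂ} (hs : 1 < s.re) :
    latSum J (taylorRem (intEmb K a) W (m + 1)) s =
      (∑' y : J, symTerm W s (intEmb K (a + (y : 𝓞 K)))) - latSum J (symTerm W) s -
        ∑ j ∈ Finset.range m,
          ((factorial (j + 1) : ℕ) : ℂ)⁻¹ * latSum J (symIter (intEmb K a) W (j + 1)) s := by
  have h1 : Summable fun y : J => symTerm W s (intEmb K (a + (y : 𝓞 K))) :=
    (summable_symTerm hW hs).comp_injective ((add_right_injective a).comp Subtype.val_injective)
  have h2 : Summable fun y : J => symTerm W s (intEmb K (y : 𝓞 K)) :=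
    (summable_symTerm hW hs).comp_injective Subtype.val_injective
  have h3 : ∀ j, Summable fun y : J =>
      ((factorial (j + 1) : ℕ) : ℂ)⁻¹ *
        symIter (intEmb K a) W (j + 1) s (intEmb K (y : 𝓞 K)) := fun j =>
    (summable_symIter J _ (j + 1) hW hs).mul_left _
  simp only [latSum, ← tsum_mul_left]
  rw [← h1.tsum_sub h2, ← Summable.tsum_finsetSum fun j _ => h3 j,
    ← (h1.sub h2).tsum_sub (summable_sum fun j _ => h3 j)]
  refine tsum_congr fun y => ?_
  rw [taylorRem, Finset.sum_range_succ', symIter_zero, ← intEmb_add, add_comm (y : 𝓞 K)]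
  simp only [Nat.factorial_zero, Nat.cast_one, inv_one, one_mul]
  ring

theorem intEmb_natCast_mul (m : ℕ) (x : 𝓞 K) :
    intEmb K ((m : 𝓞 K) * x) = (m : ℝ) • intEmb K x := by
  rw [← nsmul_eq_mul, Nat.cast_smul_eq_nsmul, intEmb, intEmb, ← map_nsmul]
  simp

/-- **Sums of first derivatives are entire.** -/
theorem extends_symDeriv (J : Ideal (𝓞 K)) (hJ : J ≠ ⊥) (n : ℕ) :
    ∀ i k : ℕ, n ≤ k + 1 + i → ∀ (a : 𝓞 K) (W : mixedSpace K → ℝ), IsSymbol k W →
      Extends K n (latSum J (symDeriv (intEmb K a) W)) := by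
  intro i
  induction i with
  | zero => exact fun k hk a W hW => extends_symDeriv_of_le J _ hk hW
  | succ i ih =>
    intro k hk a W hW
    set N := absNorm J
    have hN : (N : ℂ) ≠ 0 := Nat.cast_ne_zero.mpr fun h => hJ (absNorm_eq_zero_iff.mp h)
    set b : 𝓞 K := (N : 𝓞 K) * a with hb
    have hbJ : b ∈ J := J.mul_mem_right _ (absNorm_mem J)
    have hba : ∀ (s : ℂ) (x : mixedSpace K),
        symDeriv (intEmb K b) W s x = (N : ℂ) * symDeriv (intEmb K a) W s x := fun s x => by
      rw [hb, intEmb_natCast_mul, symDeriv_smul]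
      push_cast
      rfl
    have hrest : Extends K n fun s => latSum J (taylorRem (intEmb K b) W (n + 2)) s +
        ∑ j ∈ Finset.range n,
          ((factorial (j + 2) : ℕ) : ℂ)⁻¹ * latSum J (symIter (intEmb K b) W (j + 2)) s := by
      refine (extends_taylorRem J _ (by omega) hW).add ?_
      refine Extends.sum _ (c := fun j _ => ((factorial (j + 2) : ℕ) : ℂ)⁻¹)
        (fun j _ => differentiable_const _) fun j _ => ?_
      exact (Extends.sum (Finset.range (j + 2)) (c := fun i s => s ^ i)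
        (fun i _ => differentiable_pow i) fun i _ =>
          ih (k + (j + 1)) (by omega) b _ (isSymbol_iterW _ hW (j + 1) i)).congr
        fun s hs => latSum_symIter_succ J _ (j + 1) hW hs
    refine (hrest.const_mul (-(N : ℂ)⁻¹)).congr fun s hs => ?_
    have htel : (∑' y : J, symTerm W s (intEmb K (b + (y : 𝓞 K)))) = latSum J (symTerm W) s := by
      rw [latSum, ← (Equiv.addLeft (⟨b, hbJ⟩ : J)).tsum_eq
        fun y : J => symTerm W s (intEmb K (y : 𝓞 K))]
      rfl
    have hone : latSum J (symIter (intEmb K b) W 1) s =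
        (N : ℂ) * latSum J (symDeriv (intEmb K a) W) s := by
      simp only [latSum, ← tsum_mul_left]
      refine tsum_congr fun y => ?_
      rw [show (1 : ℕ) = 0 + 1 from rfl, symIter_succ]
      simp [iterW, hba]
    rw [latSum_taylorRem J b (n + 1) hW hs, htel, sub_self, zero_sub, Finset.sum_range_succ' _ n,
      hone]
    simp only [zero_add, Nat.factorial_one, Nat.cast_one, inv_one, one_mul]
    field_simp
    ring

/-- **A coset and its ideal.** -/
theorem extends_coset (J : Ideal (𝓞 K)) (hJ : J ≠ ⊥) (n : ℕ) (a : 𝓞 K) :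
    Extends K n fun s => (∑' y : J, symTerm weightS s (intEmb K (a + (y : 𝓞 K)))) -
      latSum J (symTerm weightS) s := by
  refine ((extends_taylorRem J (intEmb K a) (m := n + 1) n.le_succ isSymbol_weightS).add
    (Extends.sum (Finset.range n) (c := fun j _ => ((factorial (j + 1) : ℕ) : ℂ)⁻¹)
      (Φ := fun j => latSum J (symIter (intEmb K a) weightS (j + 1)))
      (fun j _ => differentiable_const _) fun j _ => ?_)).congr fun s hs => ?_
  · exact (Extends.sum (Finset.range (j + 1)) (c := fun i s => s ^ i)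
      (fun i _ => differentiable_pow i) fun i _ =>
        extends_symDeriv J hJ n n (0 + j) (by omega) a _
          (isSymbol_iterW _ isSymbol_weightS j i)).congr
      fun s hs => latSum_symIter_succ J _ j isSymbol_weightS hs
  · rw [latSum_taylorRem J a n isSymbol_weightS hs]
    ring

theorem eqOn_region {n : ℕ} {f g : ℂ → ℂ} (hf : DifferentiableOn ℂ f (region K n))
    (hg : DifferentiableOn ℂ g (region K n)) (h : ∀ s : ℂ, 1 < s.re → f s = g s) :
    Set.EqOn f g (region K n) := by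
  refine (hf.analyticOnNhd (isOpen_region n)).eqOn_of_preconnected_of_eventuallyEq
    (hg.analyticOnNhd (isOpen_region n)) (convex_halfSpace_re_gt _).isPreconnected (z₀ := 2) ?_ ?_
  · have h : (0 : ℝ) ≤ (n : ℝ) / finrank ℚ K := by positivity
    show 1 - (n : ℝ) / finrank ℚ K < (2 : ℂ).re
    norm_num
    linarith
  · filter_upwards [(isOpen_lt continuous_const Complex.continuous_re).mem_nhds
      (show (1 : ℝ) < (2 : ℂ).re by norm_num)] with s hs
    exact h s hs

/-- Continuations to all half-planes make an entire function. -/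
theorem exists_entire {Φ : ℂ → ℂ} (h : ∀ n, Extends K n Φ) :
    ∃ H : ℂ → ℂ, Differentiable ℂ H ∧ ∀ s : ℂ, 1 < s.re → Φ s = H s := by
  choose H hH hΦ using h
  set d : ℝ := (finrank ℚ K : ℝ)
  have hd : 0 < d := Nat.cast_pos.mpr finrank_pos
  set ν : ℂ → ℕ := fun s => ⌈d * (1 - s.re)⌉₊ + 1
  have hν : ∀ s : ℂ, s ∈ region K (ν s) := fun s => by
    show 1 - (ν s : ℝ) / d < s.re
    rw [sub_lt_iff_lt_add, ← sub_lt_iff_lt_add', lt_div_iff₀ hd, mul_comm]
    refine lt_of_le_of_lt (Nat.le_ceil _) ?_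
    simp [ν]
  have hcons : ∀ n n' s, n ≤ n' → s ∈ region K n → H n s = H n' s := fun n n' s hn hs =>
    eqOn_region (hH n) ((hH n').mono (region_mono hn))
      (fun z hz => (hΦ n z hz).symm.trans (hΦ n' z hz)) hs
  have hall : ∀ n s, s ∈ region K n → H (ν s) s = H n s := fun n s hs => by
    rcases le_total (ν s) n with h | h
    · exact hcons _ _ s h (hν s)
    · exact (hcons _ _ s h hs).symm
  refine ⟨fun s => H (ν s) s, fun z => ?_, fun s hs => hΦ _ s hs⟩
  refine ((hH (ν z)).differentiableAt ((isOpen_region _).mem_nhds (hν z))).congr_of_eventuallyEq ?_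
  filter_upwards [(isOpen_region _).mem_nhds (hν z)] with s hs
  exact hall _ s hs

end FA.PrimeIdeal

end
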