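import Fermat.Agent.PrimeIdealTheorem.Euler
import Mathlib.NumberTheory.LSeries.Positivity

/-!
# `L(1, χ) ≠ 0` for real class group characters

If `χ² = 1 ≠ χ` and `L(1, χ) = 0` then `f(s) = ζ(s) L(s, χ) (1 - N(v)^(-2 s))` is entire and, for
`1 < re s`, the exponential of a Dirichlet series with nonnegative coefficients, so its derivatives
at `2` alternate and it is positive on the reals below `2`; but it vanishes at `0` (Landau).
-/

set_option autoImplicit false
set_option linter.unusedSectionVars false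

noncomputable section

open NumberField IsDedekindDomain Module Filter Topology Ideal FA.Ext
open scoped nonZeroDivisors Classical ComplexOrder ContDiff

namespace FA.PrimeIdeal

/-- The exponential of a Dirichlet series with nonnegative coefficients has alternating
derivatives. -/
theorem alternating_exp {a : ℕ → ℂ} (ha : 0 ≤ a) {x : ℝ}
    (hx : LSeries.abscissaOfAbsConv a < x) (n : ℕ) :
    0 ≤ (-1) ^ n * iteratedDeriv n (fun z => Complex.exp (LSeries a z)) x := by
  induction n using Nat.strong_induction_on with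
  | _ n ih =>
    match n with
    | 0 =>
      have h := LSeries.iteratedDeriv_alternating ha hx 0
      simp only [pow_zero, one_mul, iteratedDeriv_zero] at h ⊢
      obtain ⟨-, him⟩ := Complex.nonneg_iff.mp h
      rw [Complex.nonneg_iff, Complex.exp_re, Complex.exp_im, ← him, Real.cos_zero, Real.sin_zero,
        mul_one, mul_zero]
      exact ⟨(Real.exp_pos _).le, rfl⟩
    | n + 1 =>
      set U : Set ℂ := {z | LSeries.abscissaOfAbsConv a < z.re}
      have hL : DifferentiableOn ℂ (LSeries a) U := LSeries_differentiableOn a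
      have hUo : IsOpen U := Complex.isOpen_re_gt_EReal _
      have hxU : (x : ℂ) ∈ U := by simpa [U] using hx
      have hC : ∀ {g : ℂ → ℂ}, DifferentiableOn ℂ g U → ContDiffAt ℂ (n : ℕ∞) g x := fun hg =>
        ((hg.analyticOnNhd hUo) x hxU).contDiffAt
      have he : deriv (fun z => Complex.exp (LSeries a z)) =ᶠ[𝓝 (x : ℂ)]
          deriv (LSeries a) * fun z => Complex.exp (LSeries a z) := by
        filter_upwards [hUo.mem_nhds hxU] with z hz
        rw [deriv_cexp (hL.differentiableAt (hUo.mem_nhds hz)), Pi.mul_apply, mul_comm]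
      rw [iteratedDeriv_succ', he.iteratedDeriv_eq,
        iteratedDeriv_mul (hC (hL.deriv hUo)) (hC hL.cexp), Finset.mul_sum]
      refine Finset.sum_nonneg fun i hi => ?_
      have hi' : i ≤ n := Nat.lt_succ_iff.mp (Finset.mem_range.mp hi)
      have h1 := LSeries.iteratedDeriv_alternating ha hx (i + 1)
      rw [iteratedDeriv_succ'] at h1
      have h2 := ih (n - i) (by omega)
      have hc : (0 : ℂ) ≤ (n.choose i : ℂ) := Nat.cast_nonneg _
      convert mul_nonneg hc (mul_nonneg h1 h2) using 1
      rw [show (-1 : ℂ) ^ (n + 1) = (-1) ^ (i + 1) * (-1) ^ (n - i) by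
        rw [← pow_add]; congr 1; omega]
      ring

variable {K : Type*} [Field K] [NumberField K]

theorem tsum_pow_div {z : ℂ} (hz : ‖z‖ < 1) :
    HasSum (fun k : ℕ => z ^ (k + 1) / ((k + 1 : ℕ) : ℂ)) (-Complex.log (1 - z)) := by
  simpa using Complex.hasSum_taylorSeries_neg_log' hz

/-- **`L(1, χ) ≠ 0` for `χ² = 1 ≠ χ`.** -/
theorem charL_one_ne_zero_of_sq {χ : ClassGroup (𝓞 K) →* ℂˣ} (hχ2 : χ ^ 2 = 1)
    {E : ℂ → ℂ} (hE : Differentiable ℂ E) (hE' : ∀ s : ℂ, 1 < s.re → classLC χ s = E s) :
    E 1 ≠ 0 := by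
  intro h1
  obtain ⟨G, hG, -, hG'⟩ := exists_charG (1 : ClassGroup (𝓞 K) →* ℂˣ)
  obtain ⟨v₀⟩ : Nonempty (HeightOneSpectrum (𝓞 K)) := by
    obtain ⟨I, hI⟩ := Ideal.exists_maximal (𝓞 K)
    exact ⟨⟨I, hI.isPrime, Ring.ne_bot_of_isMaximal_of_not_isField hI
      (RingOfIntegers.not_isField K)⟩⟩
  set f : ℂ → ℂ := fun s =>
    G s * dslope E 1 s * ((1 - primePow s v₀) * (1 + primePow s v₀)) with hf'
  have hn0 : ((absNorm v₀.asIdeal : ℕ) : ℂ) ≠ 0 :=
    Nat.cast_ne_zero.mpr (zero_lt_two.trans_le (two_le_absNorm v₀)).ne'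
  have hp : Differentiable ℂ fun s => primePow s v₀ :=
    differentiable_neg.const_cpow (Or.inl hn0)
  have hf : Differentiable ℂ f :=
    (hG.mul (differentiable_dslope hE 1)).mul ((hp.const_sub 1).mul (hp.const_add 1))
  -- the logarithm of `f`
  set c : HeightOneSpectrum (𝓞 K) × ℕ → ℂ := fun p =>
    (1 + (χ (primeClass p.1) : ℂ) ^ (p.2 + 1) -
      if p.1 = v₀ then 1 + (-1 : ℂ) ^ (p.2 + 1) else 0) / ((p.2 + 1 : ℕ) : ℂ) with hc'
  have hχ : ∀ C, (χ C : ℂ) = 1 ∨ (χ C : ℂ) = -1 := fun C => by
    refine mul_self_eq_one_iff.mp ?_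
    rw [← Units.val_mul, ← sq, ← MonoidHom.pow_apply, hχ2, MonoidHom.one_apply, Units.val_one]
  have hc0 : ∀ p, 0 ≤ c p := fun p => by
    simp only [hc']
    refine mul_nonneg ?_ ?_
    · rcases hχ (primeClass p.1) with h | h <;>
        rcases neg_one_pow_eq_or ℂ (p.2 + 1) with h' | h' <;>
        rw [h] <;> split_ifs <;> simp [h', one_pow, Complex.nonneg_iff]
    · rw [← Complex.ofReal_natCast, ← Complex.ofReal_inv, Complex.zero_le_real]
      positivity
  have hB : ∀ p, ‖c p‖ ≤ 4 / Real.log 2 * Real.log (absNorm p.1.asIdeal) := fun p => by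
    have h2 : Real.log 2 ≤ Real.log (absNorm p.1.asIdeal) :=
      Real.log_le_log two_pos (by exact_mod_cast two_le_absNorm p.1)
    refine le_trans ?_ (le_trans (le_of_eq (div_mul_cancel₀ 4 (Real.log_pos one_lt_two).ne').symm)
      (mul_le_mul_of_nonneg_left h2 (by positivity)))
    rw [hc', norm_div, Complex.norm_natCast]
    refine (div_le_self (norm_nonneg _) (by exact_mod_cast Nat.succ_pos p.2)).trans ?_
    refine (norm_sub_le _ _).trans ?_
    have h3 : ‖1 + (χ (primeClass p.1) : ℂ) ^ (p.2 + 1)‖ ≤ 2 := by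
      refine (norm_add_le _ _).trans ?_
      rw [norm_pow, FA.Weight1.norm_char_apply, one_pow, norm_one]
      norm_num
    have h4 : ‖if p.1 = v₀ then 1 + (-1 : ℂ) ^ (p.2 + 1) else 0‖ ≤ 2 := by
      split_ifs
      · refine (norm_add_le _ _).trans ?_
        rw [norm_pow, norm_neg, norm_one, one_pow]
        norm_num
      · simp
    linarith
  set b : ℕ → ℂ := fun n => ∑' p : PowFiber K n, c p.1
  have hb0 : 0 ≤ b := fun n => tsum_nonneg fun p => hc0 p.1
  have hB0 : (0 : ℝ) ≤ 4 / Real.log 2 := by positivity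
  have heq : ∀ s : ℂ, 1 < s.re → f s = Complex.exp (LSeries b s) := fun s hs => by
    obtain ⟨-, hval⟩ := LSeries_fiber hB0 hB hs
    have hsum := summable_mul_pow hB0 hB hs
    set z := primePow s v₀
    have hz : ‖z‖ ≤ 1 / 2 := norm_primePow_le_half hs.le v₀
    have hz' : ‖-z‖ ≤ 1 / 2 := by rwa [norm_neg]
    have hfib : ∀ v : HeightOneSpectrum (𝓞 K), HasSum
        (fun k => c (v, k) * primePow s v ^ (k + 1))
        (-Complex.log (1 - charPow 1 s v) + -Complex.log (1 - charPow χ s v) -
          if v = v₀ then -Complex.log (1 - z) + -Complex.log (1 - -z) else 0) := fun v => by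
      have e1 := tsum_pow_div ((norm_charPow_le_half 1 hs.le v).trans_lt (by norm_num))
      have e2 := tsum_pow_div ((norm_charPow_le_half χ hs.le v).trans_lt (by norm_num))
      by_cases hv : v = v₀
      · have e3 := tsum_pow_div (hz.trans_lt (by norm_num : (1 : ℝ) / 2 < 1))
        have e4 := tsum_pow_div (hz'.trans_lt (by norm_num : (1 : ℝ) / 2 < 1))
        rw [if_pos hv]
        refine ((e1.add e2).sub (e3.add e4)).congr_fun fun k => ?_
        simp only [hc', if_pos hv, charPow, mul_pow, MonoidHom.one_apply, Units.val_one, one_pow,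
          show z = primePow s v by rw [hv]]
        rw [neg_pow (primePow s v) (k + 1)]
        ring
      · rw [if_neg hv, sub_zero]
        refine (e1.add e2).congr_fun fun k => ?_
        simp only [hc', if_neg hv, charPow, mul_pow, MonoidHom.one_apply, Units.val_one, one_pow]
        ring
    have h2 : HasSum (fun v : HeightOneSpectrum (𝓞 K) =>
        -Complex.log (1 - charPow 1 s v) + -Complex.log (1 - charPow χ s v) -
          if v = v₀ then -Complex.log (1 - z) + -Complex.log (1 - -z) else 0)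
        (logLC 1 s + logLC χ s - (-Complex.log (1 - z) + -Complex.log (1 - -z))) :=
      (((summable_log_term 1 hs).hasSum.add (summable_log_term χ hs).hasSum)).sub
        (hasSum_ite_eq v₀ _)
    rw [show LSeries b s = _ from hval, (hsum.hasSum.prod_fiberwise hfib).unique h2,
      Complex.exp_sub, Complex.exp_add, Complex.exp_add, exp_logLC 1 hs, exp_logLC χ hs,
      Complex.exp_neg, Complex.exp_neg,
      Complex.exp_log (Complex.slitPlane_ne_zero (one_sub_mem_slitPlane hz)),
      Complex.exp_log (Complex.slitPlane_ne_zero (one_sub_mem_slitPlane hz'))]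
    have h3 := sub_smul_dslope E 1 s
    rw [h1, sub_zero, smul_eq_mul, ← hE' s hs] at h3
    simp only [hf']
    rw [← hG' s hs, ← h3]
    field_simp
    ring
  have hab : LSeries.abscissaOfAbsConv b < ((2 : ℝ) : EReal) := by
    refine lt_of_le_of_lt ((LSeries_fiber hB0 hB (s := ((3 / 2 : ℝ) : ℂ))
      (by rw [Complex.ofReal_re]; norm_num)).1.abscissaOfAbsConv_le) ?_
    rw [Complex.ofReal_re]
    exact_mod_cast (by norm_num : (3 / 2 : ℝ) < 2)
  have hev : f =ᶠ[𝓝 ((2 : ℝ) : ℂ)] fun z => Complex.exp (LSeries b z) := by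
    filter_upwards [(isOpen_lt continuous_const Complex.continuous_re).mem_nhds
      (show (1 : ℝ) < ((2 : ℝ) : ℂ).re by rw [Complex.ofReal_re]; norm_num)] with z hz
    exact heq z hz
  have hle := hf.apply_le_of_iteratedDeriv_alternating (c := ((2 : ℝ) : ℂ))
    (fun n _ => hev.iteratedDeriv_eq n ▸ alternating_exp hb0 hab n)
    (z := 0) (by rw [← Complex.ofReal_zero, Complex.real_le_real]; norm_num)
  have h0 : f 0 = 0 := by simp [hf', primePow]
  rw [h0, heq _ (by rw [Complex.ofReal_re]; norm_num)] at hle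
  have h2 := alternating_exp hb0 hab 0
  simp only [pow_zero, one_mul, iteratedDeriv_zero] at h2
  exact Complex.exp_ne_zero _ (le_antisymm hle h2)

end FA.PrimeIdeal

end
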