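import Fermat.Agent.ExtVanish.ClassZeta
import Mathlib.Analysis.SpecialFunctions.SmoothTransition
import Mathlib.Analysis.InnerProductSpace.Calculus
import Mathlib.Analysis.SpecialFunctions.Log.Deriv
import Mathlib.Analysis.Calculus.ContDiff.Operations

/-!
# Smooth symbols on the mixed space

A symbol of degree `k` is a function, smooth outside `0`, homogeneous of degree `-k` and supported
where all coordinates are comparable to the norm.  The derivatives of `W N^(-s)` in a direction are
combinations with powers of `s` of such products, with `k` larger.  A smooth partition of unity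
modulo units is a symbol of degree `0`.
-/

set_option autoImplicit false
set_option linter.unusedSectionVars false

noncomputable section

open NumberField NumberField.mixedEmbedding NumberField.InfinitePlace Module Filter Topology FA.Ext
open NumberField.Units NumberField.Units.dirichletUnitTheorem
open scoped Classical ContDiff

namespace FA.PrimeIdeal

variable {K : Type*} [Field K] [NumberField K]

variable (K) in
/-- The constant of the support. -/
def suppConst : ℝ := (exists_support_bound (K := K)).choose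

theorem suppConst_pos : 0 < suppConst K := (exists_support_bound (K := K)).choose_spec.1

theorem suppConst_le_one : suppConst K ≤ 1 := (exists_support_bound (K := K)).choose_spec.2.1

variable (K) in
/-- Where all coordinates are comparable to the norm. -/
def cone : Set (mixedSpace K) := {x | ∀ w, suppConst K * ‖x‖ ≤ normAtPlace w x}

theorem isClosed_cone : IsClosed (cone K) := by
  simp only [cone, Set.ofPred_forall]
  exact isClosed_iInter fun w => isClosed_le (continuous_const.mul continuous_norm)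
    (continuous_normAtPlace w)

theorem mem_cone_of_weight_ne_zero {x : mixedSpace K} (hx : weight x ≠ 0) : x ∈ cone K :=
  (exists_support_bound (K := K)).choose_spec.2.2 x hx

theorem norm_bounds_of_mem_cone {x : mixedSpace K} (hx : x ∈ cone K) :
    (suppConst K * ‖x‖) ^ finrank ℚ K ≤ mixedEmbedding.norm x ∧
      mixedEmbedding.norm x ≤ ‖x‖ ^ finrank ℚ K := by
  refine ⟨norm_lower_bound suppConst_pos hx, ?_⟩
  rw [mixedEmbedding.norm_apply, ← sum_mult_eq (K := K), ← Finset.prod_pow_eq_pow_sum]
  exact Finset.prod_le_prod (fun w _ => pow_nonneg (normAtPlace_nonneg w x) _)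
    fun w _ => pow_le_pow_left₀ (normAtPlace_nonneg w x) (normAtPlace_le_norm w x) _

theorem norm_ne_zero_of_mem_cone {x : mixedSpace K} (hx : x ∈ cone K) (hx0 : x ≠ 0) :
    mixedEmbedding.norm x ≠ 0 :=
  (lt_of_lt_of_le (pow_pos (mul_pos suppConst_pos (norm_pos_iff.mpr hx0)) _)
    (norm_bounds_of_mem_cone hx).1).ne'

theorem contDiffAt_normAtPlace {x : mixedSpace K} (w : InfinitePlace K) (h : normAtPlace w x ≠ 0) :
    ContDiffAt ℝ ∞ (fun y => normAtPlace w y) x := by
  rcases isReal_or_isComplex w with hw | hw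
  · simp only [normAtPlace_apply_of_isReal hw, norm_ne_zero_iff] at h ⊢
    exact ((contDiff_apply ℝ ℝ (⟨w, hw⟩ : {w : InfinitePlace K // IsReal w})).comp
      contDiff_fst).contDiffAt.norm ℝ h
  · simp only [normAtPlace_apply_of_isComplex hw, norm_ne_zero_iff] at h ⊢
    exact ((contDiff_apply ℝ ℂ (⟨w, hw⟩ : {w : InfinitePlace K // IsComplex w})).comp
      contDiff_snd).contDiffAt.norm ℝ h

/-- `log N`. -/
def logN (x : mixedSpace K) : ℝ := Real.log (mixedEmbedding.norm x)

theorem eventually_norm_ne_zero {x : mixedSpace K} (hx : mixedEmbedding.norm x ≠ 0) :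
    ∀ᶠ y in 𝓝 x, mixedEmbedding.norm y ≠ 0 :=
  (mixedEmbedding.continuous_norm K).continuousAt.eventually_ne hx

theorem contDiffAt_logN {x : mixedSpace K} (hx : mixedEmbedding.norm x ≠ 0) :
    ContDiffAt ℝ ∞ logN x := by
  have h : ContDiffAt ℝ ∞ (fun y : mixedSpace K => mixedEmbedding.norm y) x := by
    simp only [mixedEmbedding.norm_apply]
    exact contDiffAt_prod fun w _ =>
      (contDiffAt_normAtPlace w (mixedEmbedding.norm_ne_zero_iff.mp hx w)).pow _
  exact h.log hx

theorem logN_real_smul {r : ℝ} (hr : 0 < r) {x : mixedSpace K}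
    (hx : mixedEmbedding.norm x ≠ 0) :
    logN (r • x) = finrank ℚ K * Real.log r + logN x := by
  rw [logN, logN, mixedEmbedding.norm_smul, abs_of_pos hr, Real.log_mul (pow_ne_zero _ hr.ne') hx,
    Real.log_pow]

/-- A symbol of degree `k`. -/
structure IsSymbol (k : ℕ) (W : mixedSpace K → ℝ) : Prop where
  smooth : ∀ x, x ≠ 0 → ContDiffAt ℝ ∞ W x
  homog : ∀ x (r : ℝ), 0 < r → W (r • x) = (r ^ k)⁻¹ * W x
  supp : ∀ x, W x ≠ 0 → x ≠ 0 ∧ x ∈ cone K

theorem isSymbol_zero (k : ℕ) : IsSymbol (K := K) k 0 :=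
  ⟨fun _ _ => contDiffAt_const, fun _ _ _ => by simp, fun _ h => absurd rfl h⟩

theorem IsSymbol.sub {k : ℕ} {W V : mixedSpace K → ℝ} (hW : IsSymbol k W) (hV : IsSymbol k V) :
    IsSymbol k (W - V) where
  smooth x hx := (hW.smooth x hx).sub (hV.smooth x hx)
  homog x r hr := by simp only [Pi.sub_apply, hW.homog x r hr, hV.homog x r hr]; ring
  supp x hx := by
    by_cases h : W x = 0
    · exact hV.supp x fun h' => hx (by simp [h, h'])
    · exact hW.supp x h

theorem IsSymbol.eventually_eq_zero {k : ℕ} {W : mixedSpace K → ℝ} (hW : IsSymbol k W)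
    {x : mixedSpace K} (hx : x ∉ cone K) : W =ᶠ[𝓝 x] 0 := by
  filter_upwards [isClosed_cone.isOpen_compl.mem_nhds hx] with y hy
  by_contra h
  exact hy (hW.supp y h).2

/-- `∂_a W`. -/
def dW (a : mixedSpace K) (W : mixedSpace K → ℝ) (x : mixedSpace K) : ℝ :=
  if x = 0 then 0 else fderiv ℝ W x a

/-- `W ∂_a log N`. -/
def dLog (a : mixedSpace K) (W : mixedSpace K → ℝ) (x : mixedSpace K) : ℝ :=
  W x * fderiv ℝ logN x a

theorem isSymbol_dW (a : mixedSpace K) {k : ℕ} {W : mixedSpace K → ℝ} (hW : IsSymbol k W) :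
    IsSymbol (k + 1) (dW a W) where
  smooth x hx := by
    refine (((hW.smooth x hx).fderiv_right (m := ∞) le_rfl).clm_apply
      (contDiffAt_const (c := a))).congr_of_eventuallyEq ?_
    filter_upwards [isOpen_ne.mem_nhds hx] with y hy
    exact if_neg hy
  homog x r hr := by
    rcases eq_or_ne x 0 with rfl | hx
    · simp [dW]
    have hrx : r • x ≠ 0 := smul_ne_zero hr.ne' hx
    have h1 : HasFDerivAt (fun y => W (r • y))
        ((fderiv ℝ W (r • x)).comp (r • ContinuousLinearMap.id ℝ (mixedSpace K))) x :=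
      ((hW.smooth _ hrx).differentiableAt (by simp)).hasFDerivAt.comp x
        ((hasFDerivAt_id x).const_smul r)
    have h2 : HasFDerivAt (fun y => W (r • y)) ((r ^ k)⁻¹ • fderiv ℝ W x) x := by
      simp only [hW.homog _ r hr]
      exact ((hW.smooth x hx).differentiableAt (by simp)).hasFDerivAt.const_mul _
    have h := DFunLike.congr_fun (h1.unique h2) a
    simp only [ContinuousLinearMap.comp_apply, _root_.smul_apply,
      ContinuousLinearMap.id_apply, map_smul,
      smul_eq_mul] at h
    rw [dW, dW, if_neg hx, if_neg hrx, pow_succ, mul_inv, mul_right_comm, ← h,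
      mul_comm r, mul_assoc, mul_inv_cancel₀ hr.ne', mul_one]
  supp x hx := by
    rcases eq_or_ne x 0 with rfl | h0
    · simp [dW] at hx
    refine ⟨h0, ?_⟩
    by_contra hc
    simp [dW, h0, (hW.eventually_eq_zero hc).fderiv_eq] at hx

theorem isSymbol_dLog (a : mixedSpace K) {k : ℕ} {W : mixedSpace K → ℝ} (hW : IsSymbol k W) :
    IsSymbol (k + 1) (dLog a W) where
  smooth x hx := by
    by_cases hc : x ∈ cone K
    · exact (hW.smooth x hx).mul
        (((contDiffAt_logN (norm_ne_zero_of_mem_cone hc hx)).fderiv_right (m := ∞) le_rfl).clm_apply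
          contDiffAt_const)
    · refine (contDiffAt_const (c := (0 : ℝ))).congr_of_eventuallyEq ?_
      filter_upwards [hW.eventually_eq_zero hc] with y hy
      simp [dLog, hy]
  homog x r hr := by
    by_cases hW0 : W x = 0
    · simp [dLog, hW.homog x r hr, hW0]
    obtain ⟨hx, hc⟩ := hW.supp x hW0
    have hN := norm_ne_zero_of_mem_cone hc hx
    have hNr : mixedEmbedding.norm (r • x) ≠ 0 := by
      rw [mixedEmbedding.norm_smul]
      exact mul_ne_zero (pow_ne_zero _ (abs_ne_zero.mpr hr.ne')) hN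
    have h1 : HasFDerivAt (fun y => logN (r • y))
        ((fderiv ℝ logN (r • x)).comp (r • ContinuousLinearMap.id ℝ (mixedSpace K))) x :=
      ((contDiffAt_logN hNr).differentiableAt (by simp)).hasFDerivAt.comp x
        ((hasFDerivAt_id x).const_smul r)
    have h2 : HasFDerivAt (fun y => logN (r • y)) (fderiv ℝ logN x) x := by
      refine (((contDiffAt_logN hN).differentiableAt (by simp)).hasFDerivAt.const_add
        (finrank ℚ K * Real.log r)).congr_of_eventuallyEq ?_
      filter_upwards [eventually_norm_ne_zero hN] with y hy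
      exact logN_real_smul hr hy
    have h := DFunLike.congr_fun (h1.unique h2) a
    simp only [ContinuousLinearMap.comp_apply, _root_.smul_apply,
      ContinuousLinearMap.id_apply, map_smul,
      smul_eq_mul] at h
    rw [dLog, dLog, hW.homog x r hr, ← h, pow_succ, mul_inv]
    field_simp
  supp x hx := hW.supp x fun h => hx (by simp [dLog, h])

theorem dW_smul (c : ℝ) (a : mixedSpace K) (W : mixedSpace K → ℝ) :
    dW (c • a) W = c • dW a W := by
  funext x
  by_cases h : x = 0 <;> simp [dW, h]

theorem dLog_smul (c : ℝ) (a : mixedSpace K) (W : mixedSpace K → ℝ) :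
    dLog (c • a) W = c • dLog a W := by
  funext x
  simp [dLog]
  ring

/-- `W(x) N(x)^(-s)`. -/
def symTerm (W : mixedSpace K → ℝ) (s : ℂ) (x : mixedSpace K) : ℂ :=
  (W x : ℂ) * Complex.exp (-s * (logN x : ℂ))

/-- Its derivative in the direction `a`. -/
def symDeriv (a : mixedSpace K) (W : mixedSpace K → ℝ) (s : ℂ) (x : mixedSpace K) : ℂ :=
  symTerm (dW a W) s x - s * symTerm (dLog a W) s x

theorem symDeriv_smul (c : ℝ) (a : mixedSpace K) (W : mixedSpace K → ℝ) (s : ℂ)
    (x : mixedSpace K) : symDeriv (c • a) W s x = c * symDeriv a W s x := by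
  rw [symDeriv, symDeriv, dW_smul, dLog_smul]
  simp only [symTerm, Pi.smul_apply, smul_eq_mul, Complex.ofReal_mul]
  ring

theorem differentiable_symTerm (W : mixedSpace K → ℝ) (x : mixedSpace K) :
    Differentiable ℂ fun s => symTerm W s x :=
  ((differentiable_id.neg.mul_const _).cexp).const_mul _

theorem hasDerivAt_symTerm {k : ℕ} {W : mixedSpace K → ℝ} (hW : IsSymbol k W) (s : ℂ)
    {y a : mixedSpace K} {t : ℝ} (hx : y + t • a ≠ 0) :
    HasDerivAt (fun u : ℝ => symTerm W s (y + u • a)) (symDeriv a W s (y + t • a)) t := by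
  have hline : HasDerivAt (fun u : ℝ => y + u • a) a t := by
    simpa using ((hasDerivAt_id t).smul_const a).const_add y
  have hdW : dW a W (y + t • a) = fderiv ℝ W (y + t • a) a := if_neg hx
  by_cases hc : y + t • a ∈ cone K
  · have hN := norm_ne_zero_of_mem_cone hc hx
    have hw : HasDerivAt (fun u : ℝ => ((W (y + u • a) : ℝ) : ℂ))
        ((fderiv ℝ W (y + t • a) a : ℝ) : ℂ) t :=
      (((hW.smooth _ hx).differentiableAt (by simp)).hasFDerivAt.comp_hasDerivAt t
        hline).ofReal_comp
    have hdl : DifferentiableAt ℝ logN (y + t • a) :=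
      (contDiffAt_logN hN).differentiableAt (by simp)
    have hl : HasDerivAt (fun u : ℝ => ((logN (y + u • a) : ℝ) : ℂ))
        ((fderiv ℝ logN (y + t • a) a : ℝ) : ℂ) t :=
      HasDerivAt.ofReal_comp (f := fun u : ℝ => logN (y + u • a))
        (hdl.hasFDerivAt.comp_hasDerivAt_of_eq t hline rfl)
    refine (hw.mul ((hl.const_mul (-s)).cexp)).congr_deriv ?_
    rw [symDeriv, symTerm, symTerm, hdW, dLog]
    push_cast
    ring
  · have h0 := hW.eventually_eq_zero hc
    have h1 : (fun u : ℝ => symTerm W s (y + u • a)) =ᶠ[𝓝 t] fun _ => 0 := by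
      filter_upwards [hline.continuousAt.eventually h0] with u hu
      simp [symTerm, hu]
    refine ((hasDerivAt_const t (0 : ℂ)).congr_of_eventuallyEq h1).congr_deriv ?_
    simp [symDeriv, symTerm, hdW, dLog, h0.fderiv_eq, h0.eq_of_nhds]

/-- The symbols of the iterated derivatives, by powers of `s`. -/
def iterW (a : mixedSpace K) (W : mixedSpace K → ℝ) : ℕ → ℕ → mixedSpace K → ℝ
  | 0, 0 => W
  | 0, _ + 1 => 0
  | j + 1, 0 => dW a (iterW a W j 0)
  | j + 1, i + 1 => dW a (iterW a W j (i + 1)) - dLog a (iterW a W j i)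

theorem isSymbol_iterW (a : mixedSpace K) {k : ℕ} {W : mixedSpace K → ℝ} (hW : IsSymbol k W) :
    ∀ j i, IsSymbol (k + j) (iterW a W j i)
  | 0, 0 => hW
  | 0, _ + 1 => isSymbol_zero _
  | j + 1, 0 => isSymbol_dW a (isSymbol_iterW a hW j 0)
  | j + 1, i + 1 =>
    (isSymbol_dW a (isSymbol_iterW a hW j (i + 1))).sub
      (isSymbol_dLog a (isSymbol_iterW a hW j i))

theorem dW_zero (a : mixedSpace K) : dW a (0 : mixedSpace K → ℝ) = 0 := by
  funext x
  simp [dW]

theorem iterW_eq_zero (a : mixedSpace K) (W : mixedSpace K → ℝ) :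
    ∀ j i, j < i → iterW a W j i = 0
  | 0, i + 1, _ => rfl
  | j + 1, i + 1, h => by
    rw [iterW, iterW_eq_zero a W j (i + 1) (by omega), iterW_eq_zero a W j i (by omega), dW_zero]
    funext x
    simp [dLog]

/-- The `j`-th derivative in the direction `a`. -/
def symIter (a : mixedSpace K) (W : mixedSpace K → ℝ) (j : ℕ) (s : ℂ) (x : mixedSpace K) : ℂ :=
  ∑ i ∈ Finset.range (j + 1), s ^ i * symTerm (iterW a W j i) s x

theorem symIter_zero (a : mixedSpace K) (W : mixedSpace K → ℝ) :
    symIter a W 0 = symTerm W := by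
  funext s x
  simp [symIter, iterW]

theorem symIter_succ (a : mixedSpace K) (W : mixedSpace K → ℝ) (j : ℕ) (s : ℂ)
    (x : mixedSpace K) :
    symIter a W (j + 1) s x =
      ∑ i ∈ Finset.range (j + 1), s ^ i * symDeriv a (iterW a W j i) s x := by
  have hs : ∀ (U V : mixedSpace K → ℝ),
      symTerm (U - V) s x = symTerm U s x - symTerm V s x := fun U V => by
    simp only [symTerm, Pi.sub_apply, Complex.ofReal_sub, sub_mul]
  have h0 : symTerm (dW a (iterW a W j (j + 1))) s x = 0 := by
    rw [iterW_eq_zero a W j (j + 1) j.lt_succ_self, dW_zero]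
    simp [symTerm]
  have hshift := Finset.sum_range_succ'
    (fun i => s ^ i * symTerm (dW a (iterW a W j i)) s x) (j + 1)
  rw [Finset.sum_range_succ, h0, mul_zero, add_zero] at hshift
  rw [symIter, Finset.sum_range_succ']
  simp only [iterW, hs, symDeriv, mul_sub, Finset.sum_sub_distrib, hshift]
  rw [Finset.sum_congr rfl fun i _ =>
    show s ^ i * (s * symTerm (dLog a (iterW a W j i)) s x) =
      s ^ (i + 1) * symTerm (dLog a (iterW a W j i)) s x by ring]
  ring

theorem hasDerivAt_symIter {k : ℕ} {W : mixedSpace K → ℝ} (hW : IsSymbol k W) (j : ℕ) (s : ℂ)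
    {y a : mixedSpace K} {t : ℝ} (hx : y + t • a ≠ 0) :
    HasDerivAt (fun u : ℝ => symIter a W j s (y + u • a))
      (symIter a W (j + 1) s (y + t • a)) t := by
  rw [symIter_succ]
  exact HasDerivAt.fun_sum fun i _ =>
    (hasDerivAt_symTerm (isSymbol_iterW a hW j i) s hx).const_mul _

/-- **The size of a symbol.** -/
theorem exists_symTerm_le {k : ℕ} {W : mixedSpace K → ℝ} (hW : IsSymbol k W) :
    ∃ A, 0 ≤ A ∧ ∀ (s : ℂ) (x : mixedSpace K),
      ‖symTerm W s x‖ ≤ A * suppConst K ^ (-((finrank ℚ K : ℝ) * |s.re|)) *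
        ‖x‖ ^ (-((finrank ℚ K : ℝ) * s.re + k)) := by
  obtain ⟨A, hA⟩ := (isCompact_sphere (0 : mixedSpace K) 1).exists_bound_of_continuousOn
    (f := W) fun x hx => (hW.smooth x fun h => by simp [h] at hx).continuousAt.continuousWithinAt
  refine ⟨max A 0, le_max_right _ _, fun s x => ?_⟩
  set d : ℝ := (finrank ℚ K : ℝ) with hd
  set c := suppConst K with hc'
  have hc0 : 0 < c := suppConst_pos
  by_cases hW0 : W x = 0
  · rw [symTerm, hW0, Complex.ofReal_zero, zero_mul, norm_zero]
    positivity
  obtain ⟨hx, hc⟩ := hW.supp x hW0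
  obtain ⟨hlo, hhi⟩ := norm_bounds_of_mem_cone hc
  set r := ‖x‖ with hr
  have hr0 : 0 < r := norm_pos_iff.mpr hx
  have hWx : |W x| ≤ max A 0 * r ^ (-(k : ℝ)) := by
    have h := hW.homog (r⁻¹ • x) r hr0
    rw [smul_inv_smul₀ hr0.ne'] at h
    rw [h, abs_mul, abs_of_pos (inv_pos.mpr (pow_pos hr0 k)), Real.rpow_neg hr0.le,
      Real.rpow_natCast, mul_comm]
    refine mul_le_mul_of_nonneg_right ((hA _ ?_).trans (le_max_left _ _)) (by positivity)
    rw [mem_sphere_zero_iff_norm, _root_.norm_smul, norm_inv, Real.norm_of_nonneg hr0.le, ← hr,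
      inv_mul_cancel₀ hr0.ne']
  have hN : 0 < mixedEmbedding.norm x := lt_of_lt_of_le (pow_pos (mul_pos hc0 hr0) _) hlo
  have hNs : Real.exp (-s.re * logN x) ≤ c ^ (-(d * |s.re|)) * r ^ (-(d * s.re)) := by
    rw [mul_comm (-s.re), logN, ← Real.rpow_def_of_pos hN]
    rcases le_total 0 s.re with h | h
    · refine (Real.rpow_le_rpow_of_nonpos (pow_pos (mul_pos hc0 hr0) _) hlo
        (by linarith)).trans_eq ?_
      rw [abs_of_nonneg h, ← Real.rpow_natCast, ← Real.rpow_mul (by positivity),
        Real.mul_rpow hc0.le hr0.le, ← hd, mul_neg]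
    · refine (Real.rpow_le_rpow hN.le hhi (by linarith)).trans ?_
      rw [← Real.rpow_natCast, ← Real.rpow_mul hr0.le, ← hd, mul_neg]
      refine le_mul_of_one_le_left (by positivity) ?_
      exact Real.one_le_rpow_of_pos_of_le_one_of_nonpos hc0 suppConst_le_one
        (neg_nonpos.mpr (mul_nonneg (Nat.cast_nonneg _) (abs_nonneg _)))
  calc ‖symTerm W s x‖ = |W x| * Real.exp (-s.re * logN x) := by
        rw [symTerm, norm_mul, Complex.norm_real, Real.norm_eq_abs, Complex.norm_exp]
        simp [Complex.mul_re]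
    _ ≤ max A 0 * r ^ (-(k : ℝ)) * (c ^ (-(d * |s.re|)) * r ^ (-(d * s.re))) :=
        mul_le_mul hWx hNs (Real.exp_pos _).le (by positivity)
    _ = _ := by
        rw [neg_add, Real.rpow_add hr0]
        ring

/-- `t ↦ smoothTransition (t + 1) - smoothTransition t`. -/
def bump (t : ℝ) : ℝ := Real.smoothTransition (t + 1) - Real.smoothTransition t

theorem contDiff_bump : ContDiff ℝ ∞ bump :=
  (Real.smoothTransition.contDiff.comp (contDiff_id.add contDiff_const)).sub
    Real.smoothTransition.contDiff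

theorem abs_lt_one_of_bump_ne_zero {t : ℝ} (h : bump t ≠ 0) : |t| < 1 := by
  by_contra hc
  refine h ?_
  rcases le_abs.mp (not_lt.mp hc) with ht | ht
  · rw [bump, Real.smoothTransition.one_of_one_le ht,
      Real.smoothTransition.one_of_one_le (by linarith), sub_self]
  · rw [bump, Real.smoothTransition.zero_of_nonpos (by linarith),
      Real.smoothTransition.zero_of_nonpos (by linarith), sub_self]

theorem bump_tsum (t : ℝ) :
    ∑ n ∈ ({-⌊t⌋, -⌊t⌋ - 1} : Finset ℤ), bump (t + n) = 1 := by
  rw [Finset.sum_pair (by omega)]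
  have h1 := Int.floor_le t
  have h2 := Int.lt_floor_add_one t
  unfold bump
  push_cast
  rw [show t + (-(⌊t⌋ : ℝ) - 1) + 1 = t + -(⌊t⌋ : ℝ) by ring,
    Real.smoothTransition.one_of_one_le (show 1 ≤ t + -(⌊t⌋ : ℝ) + 1 by linarith),
    Real.smoothTransition.zero_of_nonpos (show t + (-(⌊t⌋ : ℝ) - 1) ≤ 0 by linarith)]
  ring

theorem bump_eq_zero_of_notMem (t : ℝ) {n : ℤ}
    (h : n ∉ ({-⌊t⌋, -⌊t⌋ - 1} : Finset ℤ)) : bump (t + n) = 0 := by
  by_contra hb
  have h' := abs_lt.mp (abs_lt_one_of_bump_ne_zero hb)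
  simp only [Finset.mem_insert, Finset.mem_singleton, not_or] at h
  have h1 := Int.floor_le t
  have h2 := Int.lt_floor_add_one t
  have h3 : ((-⌊t⌋ - 2 : ℤ) : ℝ) < n := by push_cast; linarith
  have h4 : (n : ℝ) < ((-⌊t⌋ + 1 : ℤ) : ℝ) := by push_cast; linarith
  have h5 : -⌊t⌋ - 2 < n := by exact_mod_cast h3
  have h6 : n < -⌊t⌋ + 1 := by exact_mod_cast h4
  omega

/-- The smooth weight. -/
def weightS (x : mixedSpace K) : ℝ :=
  if mixedEmbedding.norm x = 0 then 0 else ∏ i, bump ((logBasis K).repr (logMap x) i)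

theorem weight_ne_zero_of_weightS {x : mixedSpace K} (hx : weightS x ≠ 0) : weight x ≠ 0 := by
  have hn : mixedEmbedding.norm x ≠ 0 := fun h => hx (if_pos h)
  rw [weightS, if_neg hn, Finset.prod_ne_zero_iff] at hx
  rw [weight, if_neg hn, Finset.prod_ne_zero_iff]
  intro i hi h
  have h' := abs_lt_one_of_bump_ne_zero (hx i hi)
  rw [hat, max_eq_right (by linarith)] at h
  linarith

theorem isSymbol_weightS : IsSymbol (K := K) 0 weightS where
  smooth x hx := by
    by_cases hc : x ∈ cone K
    · have hN := norm_ne_zero_of_mem_cone hc hx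
      have hlog : ContDiffAt ℝ ∞ (fun y : mixedSpace K => logMap y) x := by
        refine contDiffAt_pi.mpr fun w => ?_
        simp only [logMap_apply]
        exact contDiffAt_const.mul
          (((contDiffAt_normAtPlace _ (mixedEmbedding.norm_ne_zero_iff.mp hN _)).log
            (mixedEmbedding.norm_ne_zero_iff.mp hN _)).sub
              ((contDiffAt_logN hN).mul contDiffAt_const))
      have h : ContDiffAt ℝ ∞
          (fun y : mixedSpace K => ∏ i, bump ((logBasis K).equivFunL (logMap y) i)) x :=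
        contDiffAt_prod fun i _ => contDiff_bump.contDiffAt.comp x
          ((contDiffAt_pi.mp ((logBasis K).equivFunL.contDiff.contDiffAt.comp x hlog)) i)
      refine h.congr_of_eventuallyEq ?_
      filter_upwards [eventually_norm_ne_zero hN] with y hy
      exact if_neg hy
    · refine (contDiffAt_const (c := (0 : ℝ))).congr_of_eventuallyEq ?_
      filter_upwards [isClosed_cone.isOpen_compl.mem_nhds hc] with y hy
      by_contra h
      exact hy (mem_cone_of_weight_ne_zero (weight_ne_zero_of_weightS h))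
  homog x r hr := by
    rw [pow_zero, inv_one, one_mul]
    by_cases hx : mixedEmbedding.norm x = 0
    · rw [weightS, weightS, if_pos hx,
        if_pos (by rw [mixedEmbedding.norm_smul, hx, mul_zero])]
    · rw [weightS, weightS, if_neg hx, if_neg, logMap_real_smul hx hr.ne']
      rw [mixedEmbedding.norm_smul]
      exact mul_ne_zero (pow_ne_zero _ (abs_ne_zero.mpr hr.ne')) hx
  supp x hx := ⟨fun h => hx (by simp [weightS, h]),
    mem_cone_of_weight_ne_zero (weight_ne_zero_of_weightS hx)⟩

theorem weightS_zero : weightS (0 : mixedSpace K) = 0 := by simp [weightS]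

/-- Summing over a unit orbit gives the order of the torsion. -/
theorem tsum_weightS_unit_smul (x : mixedSpace K) (hx : mixedEmbedding.norm x ≠ 0) :
    ∑' u : (𝓞 K)ˣ, weightS (u • x) = Units.torsionOrder K := by
  classical
  have : Fintype (torsion K) := Fintype.ofFinite _
  let e : torsion K × (Fin (Units.rank K) → ℤ) → (𝓞 K)ˣ :=
    fun ζn => (ζn.1 : (𝓞 K)ˣ) * ∏ j, fundSystem K j ^ ζn.2 j
  have he : Function.Bijective e := by
    constructor
    · intro a b hab
      obtain ⟨c, -, hc⟩ := exist_unique_eq_mul_prod K (e a)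
      rw [hc a rfl, hc b hab]
    · intro u
      obtain ⟨c, hc, -⟩ := exist_unique_eq_mul_prod K u
      exact ⟨c, hc.symm⟩
  set t := (logBasis K).repr (logMap x)
  set S := Fintype.piFinset fun i => ({-⌊t i⌋, -⌊t i⌋ - 1} : Finset ℤ)
  have hzero : ∀ n : Fin (Units.rank K) → ℤ, n ∉ S → ∏ i, bump (t i + n i) = 0 := fun n hn => by
    rw [Fintype.mem_piFinset, not_forall] at hn
    obtain ⟨i, hi⟩ := hn
    exact Finset.prod_eq_zero (Finset.mem_univ i) (bump_eq_zero_of_notMem _ hi)
  have key : ∀ ζn : torsion K × (Fin (Units.rank K) → ℤ),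
      weightS (e ζn • x) = ∏ i, bump (t i + ζn.2 i) := by
    intro ζn
    have hn : mixedEmbedding.norm (e ζn • x) ≠ 0 := by
      rwa [unitSMul_smul, map_mul, norm_unit, one_mul]
    rw [weightS, if_neg hn]
    refine Finset.prod_congr rfl fun i _ => ?_
    rw [logMap_unit_smul _ hx, map_add, Finsupp.add_apply, repr_logEmbedding_fundSystem_prod,
      add_comm]
  rw [← (Equiv.ofBijective e he).tsum_eq]
  simp only [Equiv.ofBijective_apply, key]
  rw [tsum_eq_sum (s := Finset.univ ×ˢ S) fun ζn hn => hzero _ fun h => hn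
      (Finset.mem_product.mpr ⟨Finset.mem_univ _, h⟩), Finset.sum_product]
  simp only [S, ← Finset.prod_univ_sum (fun i => ({-⌊t i⌋, -⌊t i⌋ - 1} : Finset ℤ))
    (fun i (n : ℤ) => bump (t i + n)), bump_tsum, Finset.prod_const_one, Finset.sum_const,
    Finset.card_univ, nsmul_eq_mul, mul_one, Units.torsionOrder, Nat.card_eq_fintype_card]

end FA.PrimeIdeal

end
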